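import Fermat.Agent.DegreeOne.Shift

/-!
# Abelian limits of inverse Mellin integrals near the imaginary axis

At `z = α u + i α` the integral of a flat kernel is `z^(-A) ∫ Φ t exp (-t (u + i log α))` up to
`o (1/u)`, where `Φ t = K t exp (π t / 2)`; only the limit of `Φ` at infinity counts.
-/

set_option autoImplicit false

noncomputable section

open Complex MeasureTheory Filter Set Topology
open scoped Real
open FA.DegreeGap (pt)

namespace FA.DegreeOne

/-- `K` without its decay on the upper half. -/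
def upper (K : ℝ → ℂ) (t : ℝ) : ℂ := K t * cexp ((π * t / 2 : ℝ) : ℂ)

theorem IsFlat.upper_le {K : ℝ → ℂ} (hK : IsFlat K) : ∃ C : ℝ, 0 ≤ C ∧ ∀ t : ℝ,
    ‖upper K t‖ ≤ C * Real.exp (π * (t - |t|) / 2) := by
  obtain ⟨-, C, hC0, hC⟩ := hK
  refine ⟨C, hC0, fun t => ?_⟩
  rw [upper, norm_mul, Complex.norm_exp, ofReal_re]
  refine (mul_le_mul_of_nonneg_right (hC t) (Real.exp_nonneg _)).trans_eq ?_
  rw [mul_assoc, ← Real.exp_add]
  ring_nf

theorem IsFlat.continuous_upper {K : ℝ → ℂ} (hK : IsFlat K) : Continuous (upper K) :=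
  hK.1.mul (by fun_prop)

theorem norm_osc (u L t : ℝ) : ‖cexp (-(t : ℂ) * (u + I * L))‖ = Real.exp (-(u * t)) := by
  rw [Complex.norm_exp]
  congr 1
  simp
  ring

theorem norm_exp_sub_one_le_mul (w : ℂ) : ‖cexp w - 1‖ ≤ ‖w‖ * Real.exp ‖w‖ := by
  have hd : ∀ z ∈ Metric.closedBall (0 : ℂ) ‖w‖,
      HasDerivWithinAt cexp (cexp z) (Metric.closedBall (0 : ℂ) ‖w‖) z := fun z _ =>
    (Complex.hasDerivAt_exp z).hasDerivWithinAt
  have hb : ∀ z ∈ Metric.closedBall (0 : ℂ) ‖w‖, ‖cexp z‖ ≤ Real.exp ‖w‖ := fun z hz => by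
    rw [Complex.norm_exp]
    exact Real.exp_le_exp.2 ((Complex.re_le_norm z).trans (mem_closedBall_zero_iff.1 hz))
  have h := (convex_closedBall (0 : ℂ) ‖w‖).norm_image_sub_le_of_norm_hasDerivWithin_le hd hb
    (Metric.mem_closedBall_self (norm_nonneg w)) (mem_closedBall_zero_iff.2 le_rfl)
  rw [Complex.exp_zero, sub_zero] at h
  exact h.trans_eq (mul_comm _ _)

theorem integrable_exp_neg_abs {a : ℝ} (ha : 0 < a) :
    Integrable fun t : ℝ => Real.exp (-(a * |t|)) := by
  obtain ⟨B, -, hB⟩ := FA.DegreeGap.exists_poly_mul_exp_le 0 ha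
  refine (integrable_inv_one_add_sq.const_mul B).mono' (by fun_prop)
    (Eventually.of_forall fun t => ?_)
  rw [Real.norm_of_nonneg (Real.exp_nonneg _)]
  simpa using hB t

theorem integral_exp_neg_abs {a : ℝ} (ha : 0 < a) :
    ∫ t : ℝ, Real.exp (-(a * |t|)) = 2 / a := by
  rw [integral_comp_abs (f := fun t => Real.exp (-(a * t)))]
  have h : ∫ t in Ioi (0 : ℝ), Real.exp (-(a * t)) = 1 / a := by
    simp only [← neg_mul]
    rw [integral_exp_mul_Ioi (neg_lt_zero.2 ha)]
    simp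
  rw [h]
  ring

theorem IsFlat.integrable_osc {K : ℝ → ℂ} (hK : IsFlat K) {u : ℝ} (hu : 0 < u) (hu1 : u ≤ 1)
    (L : ℝ) : Integrable fun t : ℝ => upper K t * cexp (-(t : ℂ) * (u + I * L)) := by
  obtain ⟨C, hC0, hC⟩ := hK.upper_le
  refine ((integrable_exp_neg_abs hu).const_mul C).mono'
    (hK.continuous_upper.mul (by fun_prop)).aestronglyMeasurable
    (Eventually.of_forall fun t => ?_)
  rw [norm_mul, norm_osc]
  refine (mul_le_mul_of_nonneg_right (hC t) (Real.exp_nonneg _)).trans ?_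
  rw [mul_assoc, ← Real.exp_add]
  refine mul_le_mul_of_nonneg_left (Real.exp_le_exp.2 ?_) hC0
  rcases le_total 0 t with ht | ht
  · rw [abs_of_nonneg ht, sub_self, mul_zero, zero_div, zero_add]
  · rw [abs_of_nonpos ht]
    nlinarith [Real.pi_gt_three]

theorem lineMellin_eq_osc (A : ℝ) (K : ℝ → ℂ) {z : ℂ} (hz : z ≠ 0) :
    lineMellin A K z = z ^ (-(A : ℂ)) *
      ∫ t : ℝ, upper K t * cexp (-(t : ℂ) * ((π / 2 : ℝ) + I * Complex.log z)) := by
  rw [lineMellin, ← integral_const_mul]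
  refine integral_congr_ae (Eventually.of_forall fun t => ?_)
  simp only [upper, cpow_def_of_ne_zero hz, pt]
  rw [show ∀ p q r s : ℂ, p * (q * r * s) = q * (p * (r * s)) from fun p q r s => by ring,
    ← Complex.exp_add, ← Complex.exp_add]
  congr 2
  push_cast
  ring

theorem log_axis {α : ℝ} (hα : 0 < α) (u : ℝ) :
    Complex.log (((α * u : ℝ) : ℂ) + α * I) =
      (Real.log α : ℂ) + ((π / 2 : ℝ) : ℂ) * I + Complex.log (1 - u * I) := by
  have hw : 0 < (1 - (u : ℂ) * I).re := by simp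
  have hne : (1 - (u : ℂ) * I) ≠ 0 := ne_zero_of_re_pos hw
  have harg := abs_lt.1 (Complex.abs_arg_lt_pi_div_two_iff.2 (Or.inl hw))
  have e : ((α * u : ℝ) : ℂ) + α * I =
      cexp ((Real.log α : ℂ) + ((π / 2 : ℝ) : ℂ) * I + Complex.log (1 - u * I)) := by
    rw [Complex.exp_add, Complex.exp_add, Complex.exp_log hne, ← ofReal_exp, Real.exp_log hα,
      show cexp (((π / 2 : ℝ) : ℂ) * I) = I by push_cast; exact Complex.exp_pi_div_two_mul_I]
    push_cast
    linear_combination ((α : ℂ) * u) * Complex.I_sq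
  rw [e, Complex.log_exp]
  · simp [Complex.log_im]
    linarith [Real.pi_pos]
  · simp [Complex.log_im]
    linarith [Real.pi_pos]

theorem norm_log_axis_le {u : ℝ} (hu : 0 ≤ u) (hu1 : u ≤ 1 / 2) :
    ‖Complex.log (1 - u * I) + u * I‖ ≤ u ^ 2 := by
  have hn : ‖-((u : ℂ) * I)‖ = u := by simp [abs_of_nonneg hu]
  have h := Complex.norm_log_one_add_sub_self_le (z := -((u : ℂ) * I)) (by rw [hn]; linarith)
  rw [hn, sub_neg_eq_add, ← sub_eq_add_neg] at h
  refine h.trans ?_
  have : (1 - u)⁻¹ ≤ 2 := by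
    rw [inv_le_iff_one_le_mul₀ (by linarith)]
    linarith
  calc u ^ 2 * (1 - u)⁻¹ / 2 ≤ u ^ 2 * 2 / 2 := by gcongr
    _ = u ^ 2 := by ring

/-- `u ^ (1 + i τ)`. -/
def oscWeight (τ u : ℝ) : ℂ := (u : ℂ) * cexp ((τ * Real.log u : ℝ) * I)

theorem norm_oscWeight (τ : ℝ) {u : ℝ} (hu : 0 ≤ u) : ‖oscWeight τ u‖ = u := by
  rw [oscWeight, norm_mul, Complex.norm_exp_ofReal_mul_I, mul_one, Complex.norm_real,
    Real.norm_of_nonneg hu]

theorem oscWeight_mul (τ : ℝ) {p q : ℝ} (hp : 0 < p) (hq : 0 < q) :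
    oscWeight τ (p * q) = oscWeight τ p * oscWeight τ q := by
  rw [oscWeight, oscWeight, oscWeight, Real.log_mul hp.ne' hq.ne']
  push_cast
  rw [mul_add, add_mul, Complex.exp_add]
  ring

theorem tendsto_mul_nhdsGT_zero (c : ℝ) : Tendsto (fun u : ℝ => u * c) (𝓝[>] 0) (𝓝 0) := by
  have h : Tendsto (fun u : ℝ => u) (𝓝[>] 0) (𝓝 0) := tendsto_nhdsWithin_of_tendsto_nhds tendsto_id
  simpa using h.mul_const c

/-- **The integral near `i α` as a Laplace integral.** -/
theorem IsFlat.tendsto_lineMellin {K : ℝ → ℂ} (hK : IsFlat K) (A τ : ℝ) {α : ℝ} (hα : 0 < α)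
    {l : ℂ} (hl : Tendsto (fun u : ℝ => oscWeight τ u *
      ∫ t in Ioi (0 : ℝ), upper K t * cexp (-(t : ℂ) * (u + I * Real.log α))) (𝓝[>] 0) (𝓝 l)) :
    Tendsto (fun u : ℝ => oscWeight τ u * lineMellin A K (((α * u : ℝ) : ℂ) + α * I)) (𝓝[>] 0)
      (𝓝 (((α : ℂ) * I) ^ (-(A : ℂ)) * l)) := by
  obtain ⟨C, hC0, hC⟩ := hK.upper_le
  set W₁ : ℝ → ℂ := fun u => ((π / 2 : ℝ) : ℂ) + I * Complex.log (((α * u : ℝ) : ℂ) + α * I)
  set W₀ : ℝ → ℂ := fun u => (u : ℂ) + I * Real.log α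
  set J₁ : ℝ → ℂ := fun u => ∫ t : ℝ, upper K t * cexp (-(t : ℂ) * W₁ u)
  set J₀ : ℝ → ℂ := fun u => ∫ t : ℝ, upper K t * cexp (-(t : ℂ) * W₀ u)
  have hsmall : ∀ᶠ u : ℝ in 𝓝[>] 0, 0 < u ∧ u ≤ 1 / 4 := by
    filter_upwards [self_mem_nhdsWithin,
      mem_nhdsWithin_of_mem_nhds (Iic_mem_nhds (show (0 : ℝ) < 1 / 4 by norm_num))] with u h1 h2
    exact ⟨h1, h2⟩
  have hhalf : Tendsto (fun u : ℝ => oscWeight τ u * J₀ u) (𝓝[>] 0) (𝓝 l) := by
    have hneg : Tendsto (fun u : ℝ => oscWeight τ u *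
        ∫ t in Iic (0 : ℝ), upper K t * cexp (-(t : ℂ) * W₀ u)) (𝓝[>] 0) (𝓝 0) := by
      refine squeeze_zero_norm' (a := fun u : ℝ => u * (C * ∫ t in Iic (0 : ℝ), Real.exp t))
        ?_ (tendsto_mul_nhdsGT_zero _)
      filter_upwards [hsmall] with u hu
      rw [norm_mul, norm_oscWeight τ hu.1.le, ← integral_const_mul]
      refine mul_le_mul_of_nonneg_left (norm_integral_le_of_norm_le
        ((integrableOn_exp_Iic 0).const_mul C) ?_) hu.1.le
      filter_upwards [ae_restrict_mem measurableSet_Iic] with t ht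
      rw [mem_Iic] at ht
      rw [norm_mul, norm_osc]
      refine (mul_le_mul_of_nonneg_right (hC t) (Real.exp_nonneg _)).trans ?_
      rw [mul_assoc, ← Real.exp_add]
      refine mul_le_mul_of_nonneg_left (Real.exp_le_exp.2 ?_) hC0
      rw [abs_of_nonpos ht]
      nlinarith [Real.pi_gt_three]
    have h := hneg.add hl
    rw [zero_add] at h
    refine h.congr' ?_
    filter_upwards [hsmall] with u hu
    have hint : Integrable fun t : ℝ => upper K t * cexp (-(t : ℂ) * W₀ u) :=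
      hK.integrable_osc hu.1 (by linarith) _
    simp only [J₀]
    rw [← mul_add, ← integral_add_compl (measurableSet_Iic : MeasurableSet (Iic (0 : ℝ))) hint,
      compl_Iic]
  have hdiff : Tendsto (fun u : ℝ => oscWeight τ u * (J₁ u - J₀ u)) (𝓝[>] 0) (𝓝 0) := by
    refine squeeze_zero_norm' (a := fun u : ℝ => u * (32 * C)) ?_
      (tendsto_mul_nhdsGT_zero _)
    filter_upwards [hsmall] with u hu
    rw [norm_mul, norm_oscWeight τ hu.1.le]
    refine mul_le_mul_of_nonneg_left ?_ hu.1.le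
    set ℓ : ℂ := Complex.log (1 - u * I) + u * I
    have hℓ : ‖ℓ‖ ≤ u ^ 2 := norm_log_axis_le hu.1.le (by linarith)
    have hW : W₁ u = W₀ u + I * ℓ := by
      simp only [W₁, W₀, ℓ, log_axis hα]
      push_cast
      linear_combination ((π : ℂ) / 2 - (u : ℂ)) * Complex.I_sq
    set f₀ : ℝ → ℂ := fun t => upper K t * cexp (-(t : ℂ) * W₀ u)
    have hle : ∀ t : ℝ, ‖upper K t * cexp (-(t : ℂ) * W₁ u) - f₀ t‖ ≤
        4 * C * u * Real.exp (-(u / 4 * |t|)) := by
      intro t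
      rw [show upper K t * cexp (-(t : ℂ) * W₁ u) - f₀ t =
        f₀ t * (cexp (-(t : ℂ) * (I * ℓ)) - 1) by
          rw [hW]; simp only [f₀]; rw [mul_add, Complex.exp_add]; ring, norm_mul, norm_mul,
        norm_osc]
      have h1 : ‖cexp (-(t : ℂ) * (I * ℓ)) - 1‖ ≤ |t| * u ^ 2 * Real.exp (|t| * u ^ 2) := by
        refine (norm_exp_sub_one_le_mul _).trans ?_
        have h2 : ‖-(t : ℂ) * (I * ℓ)‖ ≤ |t| * u ^ 2 := by
          rw [norm_mul, norm_mul, norm_neg, Complex.norm_I, one_mul, Complex.norm_real]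
          exact mul_le_mul_of_nonneg_left hℓ (abs_nonneg t)
        gcongr
      refine (mul_le_mul (mul_le_mul_of_nonneg_right (hC t) (Real.exp_nonneg _)) h1
        (norm_nonneg _) (by positivity)).trans ?_
      have h3 : Real.exp (π * (t - |t|) / 2) * Real.exp (-(u * t)) * Real.exp (|t| * u ^ 2) ≤
          Real.exp (-(u / 2 * |t|)) := by
        rw [← Real.exp_add, ← Real.exp_add]
        refine Real.exp_le_exp.2 ?_
        have h4 : |t| * u ^ 2 ≤ |t| * (u / 4) :=
          mul_le_mul_of_nonneg_left (by nlinarith) (abs_nonneg t)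
        rcases le_total 0 t with ht | ht
        · rw [abs_of_nonneg ht] at h4 ⊢
          rw [sub_self, mul_zero, zero_div, zero_add]
          nlinarith
        · rw [abs_of_nonpos ht] at h4 ⊢
          nlinarith [Real.pi_gt_three]
      have h5 : u * |t| * Real.exp (-(u / 2 * |t|)) ≤ 4 * Real.exp (-(u / 4 * |t|)) := by
        have h6 := Real.add_one_le_exp (u / 4 * |t|)
        rw [show -(u / 2 * |t|) = -(u / 4 * |t|) + -(u / 4 * |t|) by ring, Real.exp_add,
          ← mul_assoc]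
        refine mul_le_mul_of_nonneg_right ?_ (Real.exp_nonneg _)
        rw [Real.exp_neg, ← div_eq_mul_inv, div_le_iff₀ (Real.exp_pos _)]
        linarith
      calc C * Real.exp (π * (t - |t|) / 2) * Real.exp (-(u * t)) *
            (|t| * u ^ 2 * Real.exp (|t| * u ^ 2))
          = C * |t| * u ^ 2 * (Real.exp (π * (t - |t|) / 2) * Real.exp (-(u * t)) *
              Real.exp (|t| * u ^ 2)) := by ring
        _ ≤ C * |t| * u ^ 2 * Real.exp (-(u / 2 * |t|)) :=
            mul_le_mul_of_nonneg_left h3 (mul_nonneg (mul_nonneg hC0 (abs_nonneg t)) (sq_nonneg u))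
        _ = C * u * (u * |t| * Real.exp (-(u / 2 * |t|))) := by ring
        _ ≤ C * u * (4 * Real.exp (-(u / 4 * |t|))) :=
            mul_le_mul_of_nonneg_left h5 (mul_nonneg hC0 hu.1.le)
        _ = _ := by ring
    have hint : Integrable f₀ := hK.integrable_osc hu.1 (by linarith) _
    have hq : (0 : ℝ) < u / 4 := by linarith
    have hd : Integrable fun t : ℝ => upper K t * cexp (-(t : ℂ) * W₁ u) - f₀ t :=
      ((integrable_exp_neg_abs hq).const_mul (4 * C * u)).mono'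
        ((hK.continuous_upper.mul (by fun_prop)).sub
          (hK.continuous_upper.mul (by fun_prop))).aestronglyMeasurable
        (Eventually.of_forall hle)
    have e : J₁ u - J₀ u = ∫ t : ℝ, (upper K t * cexp (-(t : ℂ) * W₁ u) - f₀ t) := by
      have h := integral_add hd hint
      simp only [sub_add_cancel] at h
      simp only [J₁, J₀]
      rw [h, add_sub_cancel_right]
    rw [e]
    refine (norm_integral_le_of_norm_le ((integrable_exp_neg_abs hq).const_mul _)
      (Eventually.of_forall hle)).trans_eq ?_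
    rw [integral_const_mul, integral_exp_neg_abs hq]
    have hu0 : u ≠ 0 := hu.1.ne'
    field_simp
    ring
  have hsum := hhalf.add hdiff
  rw [add_zero] at hsum
  have hz : Tendsto (fun u : ℝ => (((α * u : ℝ) : ℂ) + α * I) ^ (-(A : ℂ))) (𝓝[>] 0)
      (𝓝 (((α : ℂ) * I) ^ (-(A : ℂ)))) := by
    have h1 : Tendsto (fun u : ℝ => ((α * u : ℝ) : ℂ) + α * I) (𝓝[>] 0) (𝓝 ((α : ℂ) * I)) := by
      have hc : Continuous fun u : ℝ => ((α * u : ℝ) : ℂ) + α * I := by fun_prop
      simpa using (hc.tendsto 0).mono_left (nhdsWithin_le_nhds (s := Ioi (0 : ℝ)))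
    exact (continuousAt_cpow_const (Or.inr (by simp [hα.ne']))).tendsto.comp h1
  refine (hz.mul hsum).congr' ?_
  filter_upwards [hsmall] with u hu
  have hne : ((α * u : ℝ) : ℂ) + α * I ≠ 0 := fun e => hα.ne' (by
    simpa using congrArg Complex.im e)
  rw [lineMellin_eq_osc A K hne]
  simp only [J₁, W₁]
  ring

/-- `u ∫ f t exp (-u t) → 0` when `f → 0`. -/
theorem tendsto_laplace_zero {f : ℝ → ℂ} (hf : ContinuousOn f (Ioi 0))
    {C : ℝ} (hC : ∀ t, 0 < t → ‖f t‖ ≤ C) (h0 : Tendsto f atTop (𝓝 0)) (τ L : ℝ) :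
    Tendsto (fun u : ℝ => oscWeight τ u *
      ∫ t in Ioi (0 : ℝ), f t * cexp (-(t : ℂ) * (u + I * L))) (𝓝[>] 0) (𝓝 0) := by
  have hC0 : 0 ≤ C := (norm_nonneg _).trans (hC 1 one_pos)
  have hexp : IntegrableOn (fun v : ℝ => C * Real.exp (-v)) (Ioi 0) :=
    (integrableOn_exp_neg_Ioi 0).const_mul C
  have key : Tendsto (fun u : ℝ => ∫ v in Ioi (0 : ℝ), ‖f (u⁻¹ * v)‖ * Real.exp (-v)) (𝓝[>] 0)
      (𝓝 (∫ _v in Ioi (0 : ℝ), (0 : ℝ))) := by
    refine tendsto_integral_filter_of_dominated_convergence (fun v => C * Real.exp (-v)) ?_ ?_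
      hexp ?_
    · filter_upwards [self_mem_nhdsWithin] with u hu
      have hu' : 0 < u⁻¹ := inv_pos.2 hu
      exact (((hf.comp (continuous_const.mul continuous_id).continuousOn fun v hv =>
        mul_pos hu' hv).norm).mul (by fun_prop)).aestronglyMeasurable measurableSet_Ioi
    · filter_upwards [self_mem_nhdsWithin] with u hu
      filter_upwards [ae_restrict_mem measurableSet_Ioi] with v hv
      rw [Real.norm_of_nonneg (by positivity)]
      exact mul_le_mul_of_nonneg_right (hC _ (mul_pos (inv_pos.2 hu) hv)) (Real.exp_nonneg _)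
    · filter_upwards [ae_restrict_mem measurableSet_Ioi] with v hv
      simpa using (h0.comp (tendsto_inv_nhdsGT_zero.atTop_mul_const hv)).norm.mul_const
        (Real.exp (-v))
  rw [integral_zero] at key
  refine squeeze_zero_norm' ?_ key
  filter_upwards [self_mem_nhdsWithin] with u hu
  rw [mem_Ioi] at hu
  have e := integral_comp_mul_left_Ioi' (fun v : ℝ => ‖f (u⁻¹ * v)‖ * Real.exp (-v)) 0 hu
  simp only [inv_mul_cancel_left₀ hu.ne', mul_zero, smul_eq_mul] at e
  rw [← e, norm_mul, norm_oscWeight τ hu.le]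
  refine mul_le_mul_of_nonneg_left ((norm_integral_le_integral_norm _).trans_eq ?_) hu.le
  refine setIntegral_congr_fun measurableSet_Ioi fun t _ => ?_
  simp only [norm_mul, norm_osc]

end FA.DegreeOne

end
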