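import Fermat.Agent.DegreeOne.Abel
import Fermat.Agent.DegreeGap.Periodic
import Mathlib.Analysis.Fourier.RiemannLebesgueLemma

/-!
# Degree one: periodic coefficients

Near `i α` the series `∑ a n exp (-n z)` blows up like `(x / α)^(-1 - iτ)` exactly when `α` is
one of the points `n exp (-κ)`, with a multiple of `conj (a n) n^(iτ)`; the period `2 π i` of
the series makes these periodic.
-/

set_option autoImplicit false

noncomputable section

open Complex MeasureTheory Filter Set Topology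
open scoped Real ComplexConjugate FourierTransform
open FA.DegreeGap (pt degree HasFunctionalEquation expSeries)

namespace FA.DegreeOne

variable {a : ℕ → ℂ} {m : ℕ} {E : ℂ → ℂ} {r : ℕ} {lam : Fin r → ℝ} {mu : Fin r → ℂ} {Q : ℝ}
  {omega : ℂ}

/-- The Laplace integral with oscillation `d`. -/
def oscInt (τ d : ℝ) : ℂ :=
  ∫ v in Ioi (0 : ℝ), (Real.exp (-v) : ℂ) * cexp ((τ * Real.log v : ℝ) * I) *
    cexp ((d * v : ℝ) * I)

theorem norm_oscInt_le (τ d : ℝ) : ‖oscInt τ d‖ ≤ ∫ v in Ioi (0 : ℝ), Real.exp (-v) :=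
  (norm_integral_le_integral_norm _).trans_eq (setIntegral_congr_fun measurableSet_Ioi fun v _ => by
    simp only [norm_mul, Complex.norm_exp_ofReal_mul_I, mul_one, Complex.norm_real,
      Real.norm_of_nonneg (Real.exp_nonneg _)])

theorem oscInt_zero (τ : ℝ) : oscInt τ 0 = Complex.Gamma (1 + τ * I) := by
  rw [Complex.Gamma_eq_integral (by simp), GammaIntegral, oscInt]
  refine setIntegral_congr_fun measurableSet_Ioi fun v hv => ?_
  have hv' : (v : ℂ) ≠ 0 := ofReal_ne_zero.2 (ne_of_gt hv)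
  simp only [zero_mul, ofReal_zero, Complex.exp_zero, mul_one, add_sub_cancel_left,
    cpow_def_of_ne_zero hv', ← ofReal_log (le_of_lt hv)]
  push_cast
  ring_nf

theorem tendsto_oscInt (τ : ℝ) {d : ℝ} (hd : d ≠ 0) :
    Tendsto (fun u : ℝ => oscInt τ (d * u⁻¹)) (𝓝[>] 0) (𝓝 0) := by
  set f : ℝ → ℂ := (Ioi (0 : ℝ)).indicator
    fun v => (Real.exp (-v) : ℂ) * cexp ((τ * Real.log v : ℝ) * I)
  have hw : Tendsto (fun u : ℝ => -(d / (2 * π)) * u⁻¹) (𝓝[>] 0) (cocompact ℝ) := by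
    have hc : -(d / (2 * π)) ≠ 0 := neg_ne_zero.2 (div_ne_zero hd (by positivity))
    rw [cocompact_eq_atBot_atTop]
    rcases lt_or_gt_of_ne hc with h | h
    · exact (tendsto_inv_nhdsGT_zero.const_mul_atTop_of_neg h).mono_right le_sup_left
    · exact (tendsto_inv_nhdsGT_zero.const_mul_atTop h).mono_right le_sup_right
  refine ((Real.tendsto_integral_exp_smul_cocompact f).comp hw).congr fun u => ?_
  rw [Function.comp_apply, oscInt, ← integral_indicator measurableSet_Ioi]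
  refine integral_congr_ae (Eventually.of_forall fun v => ?_)
  simp only [f, Circle.smul_def, Real.fourierChar_apply, smul_eq_mul]
  rw [← Set.indicator_mul_right _ (fun v : ℝ =>
    cexp (((2 * π * -(v * (-(d / (2 * π)) * u⁻¹)) : ℝ) : ℂ) * I))]
  by_cases hv : v ∈ Ioi (0 : ℝ)
  · rw [indicator_of_mem hv, indicator_of_mem hv]
    rw [show 2 * π * -(v * (-(d / (2 * π)) * u⁻¹)) = d * u⁻¹ * v by field_simp]
    ring
  · rw [indicator_of_notMem hv, indicator_of_notMem hv]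

/-- The model integral. -/
theorem tendsto_model {c : ℕ → ℂ} (hc : Summable fun j => ‖c j‖) (θ : ℕ → ℝ) (τ κ L : ℝ) :
    Tendsto (fun u : ℝ => oscWeight τ u * ∫ t in Ioi (0 : ℝ),
      (∑' j, c j * cexp ((θ j * t : ℝ) * I)) * cexp ((τ * Real.log t - κ * t : ℝ) * I) *
        cexp (-(t : ℂ) * (u + I * L))) (𝓝[>] 0)
      (𝓝 ((∑' j, if θ j = κ + L then c j else 0) * Complex.Gamma (1 + τ * I))) := by
  have hlim : Tendsto (fun u : ℝ => ∑' j, c j * oscInt τ ((θ j - κ - L) * u⁻¹)) (𝓝[>] 0)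
      (𝓝 (∑' j, (if θ j = κ + L then c j else 0) * Complex.Gamma (1 + τ * I))) := by
    refine tendsto_tsum_of_dominated_convergence (bound := fun j =>
      ‖c j‖ * ∫ v in Ioi (0 : ℝ), Real.exp (-v)) (hc.mul_right _) (fun j => ?_)
      (Eventually.of_forall fun u j => ?_)
    · by_cases hj : θ j = κ + L
      · rw [if_pos hj]
        simp only [show θ j - κ - L = 0 by linarith, zero_mul, oscInt_zero]
        exact tendsto_const_nhds
      · rw [if_neg hj, zero_mul]
        simpa using (tendsto_oscInt τ (d := θ j - κ - L) fun e => hj (by linarith)).const_mul (c j)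
    · rw [norm_mul]
      exact mul_le_mul_of_nonneg_left (norm_oscInt_le _ _) (norm_nonneg _)
  rw [tsum_mul_right] at hlim
  refine hlim.congr' ?_
  filter_upwards [self_mem_nhdsWithin] with u hu
  rw [mem_Ioi] at hu
  set G : ℕ → ℝ → ℂ := fun j v => c j * ((Real.exp (-v) : ℂ) *
    cexp ((τ * Real.log v : ℝ) * I) * cexp (((θ j - κ - L) * u⁻¹ * v : ℝ) * I))
  have hGn : ∀ j v, ‖G j v‖ = ‖c j‖ * Real.exp (-v) := fun j v => by
    simp only [G, norm_mul, Complex.norm_exp_ofReal_mul_I, mul_one, Complex.norm_real,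
      Real.norm_of_nonneg (Real.exp_nonneg _)]
  have hG : ∀ j, Integrable (G j) (volume.restrict (Ioi 0)) := fun j => by
    refine ((integrableOn_exp_neg_Ioi 0).const_mul ‖c j‖).mono'
      ((by fun_prop : Measurable (G j)).aestronglyMeasurable)
      (Eventually.of_forall fun v => (hGn j v).le)
  have hsum : Summable fun j => ∫ v in Ioi (0 : ℝ), ‖G j v‖ := by
    simp only [hGn, integral_const_mul]
    exact hc.mul_right _
  have key := integral_tsum_of_summable_integral_norm hG hsum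
  simp only [oscInt, ← integral_const_mul]
  rw [key]
  have e := integral_comp_mul_left_Ioi' (fun v : ℝ => ∑' j, G j v) 0 hu
  rw [mul_zero] at e
  rw [← e, Complex.real_smul, ← integral_const_mul]
  refine setIntegral_congr_fun measurableSet_Ioi fun t ht => ?_
  simp only [G, ← tsum_mul_left, ← tsum_mul_right]
  refine tsum_congr fun j => ?_
  rw [oscWeight, Real.log_mul hu.ne' (ne_of_gt ht), ofReal_exp]
  rw [show ∀ p q s₁ s₂ s₃ : ℂ, p * (q * (s₁ * s₂ * s₃)) = p * q * (s₁ * s₂ * s₃) from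
    fun p q s₁ s₂ s₃ => by ring, show ∀ p s₁ q s₂ s₃ s₄ : ℂ, p * s₁ * (q * s₂ * s₃ * s₄) =
      p * q * (s₁ * s₂ * s₃ * s₄) from fun p s₁ q s₂ s₃ s₄ => by ring, ← Complex.exp_add,
    ← Complex.exp_add, ← Complex.exp_add, ← Complex.exp_add, ← Complex.exp_add]
  congr 2
  have hu' : (u : ℂ) ≠ 0 := ofReal_ne_zero.2 hu.ne'
  push_cast
  field_simp
  ring

theorem mul_cpow_I {α : ℝ} (hα : 0 < α) (w : ℂ) :
    ((α : ℂ) * I) ^ w = (α : ℂ) ^ w * I ^ w := by
  have hα' : (α : ℂ) ≠ 0 := ofReal_ne_zero.2 hα.ne'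
  rw [cpow_def_of_ne_zero (mul_ne_zero hα' I_ne_zero), cpow_def_of_ne_zero hα',
    cpow_def_of_ne_zero I_ne_zero, Complex.log_ofReal_mul hα I_ne_zero, ← ofReal_log hα.le, add_mul,
    Complex.exp_add]

/-- The coefficient reached at `α`. -/
def hitSum (a : ℕ → ℂ) (lam : Fin r → ℝ) (Q α : ℝ) : ℂ :=
  ∑' j : ℕ, if Real.log j = rateK lam Q + Real.log α
    then conj (LSeries.term a ((5 / 4 : ℝ) : ℂ) j) else 0

theorem conj_series_line (t : ℝ) :
    conj (LSeries a (pt (5 / 4) t)) =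
      ∑' j : ℕ, conj (LSeries.term a ((5 / 4 : ℝ) : ℂ) j) * cexp ((Real.log j * t : ℝ) * I) := by
  rw [LSeries, Complex.conj_tsum]
  refine tsum_congr fun j => ?_
  rcases eq_or_ne j 0 with rfl | hj
  · simp
  have hj' : (j : ℂ) ≠ 0 := Nat.cast_ne_zero.2 hj
  rw [LSeries.term_of_ne_zero hj, LSeries.term_of_ne_zero hj, pt, cpow_add _ _ hj', map_div₀,
    map_div₀, map_mul, cpow_def_of_ne_zero hj' ((t : ℂ) * I), ← Complex.exp_conj, ← ofReal_natCast,
    ← ofReal_log (Nat.cast_nonneg j), map_mul, map_mul, conj_ofReal, conj_ofReal, conj_I,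
    div_mul_eq_div_div, div_eq_mul_inv _ (cexp _), ← Complex.exp_neg]
  congr 2
  push_cast
  ring

/-- **The singularity at `i α`.** -/
theorem exists_limit (h : HasFunctionalEquation a m E lam mu Q omega) (hd : degree lam = 1) :
    ∃ B : ℂ, B ≠ 0 ∧ ∀ α : ℝ, 0 < α → Tendsto (fun x : ℝ => oscWeight (shiftT mu) x *
      (2 * π * expSeries a 0 ((x : ℂ) + α * I))) (𝓝[>] 0)
      (𝓝 (B * (oscWeight (shiftT mu) α * (α : ℂ) ^ ((1 / 4 : ℝ) : ℂ)) * hitSum a lam Q α)) := by
  obtain ⟨P₁, P₂, hP₁, hP₂, hdec⟩ := exists_decomposition h hd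
  obtain ⟨K, hK0, hK⟩ := tendsto_kernel (mu := mu) h.lam_pos h.Q_pos hd (-(1 / 4))
  set τ := shiftT mu
  set κ := rateK lam Q
  have hflat := isFlat_reflKernel h hd
  have hs := h.summable ((5 / 4 : ℝ) : ℂ) (by norm_num)
  set c : ℕ → ℂ := fun j => conj (LSeries.term a ((5 / 4 : ℝ) : ℂ) j)
  have hc : Summable fun j => ‖c j‖ := by simpa [c, Complex.norm_conj] using hs.norm
  have hω : omega ≠ 0 := norm_ne_zero_iff.1 (by rw [h.norm_omega]; exact one_ne_zero)
  refine ⟨omega * K * Complex.Gamma (1 + τ * I) * I ^ ((1 / 4 : ℝ) : ℂ),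
    mul_ne_zero (mul_ne_zero (mul_ne_zero hω hK0) (Gamma_ne_zero_of_re_pos (by simp)))
      (cpow_ne_zero_iff.2 (Or.inl I_ne_zero)), fun α hα => ?_⟩
  set L := Real.log α
  have hneg : ∀ {P : ℝ → ℂ}, IsNegligible P → ∀ A : ℝ, Tendsto (fun u : ℝ => oscWeight τ u *
      lineMellin A P (((α * u : ℝ) : ℂ) + α * I)) (𝓝[>] 0) (𝓝 0) := by
    rintro P ⟨hP, hP0⟩ A
    obtain ⟨C, -, hC⟩ := hP.upper_le
    have h1 := hP.tendsto_lineMellin A τ hα (tendsto_laplace_zero (C := C)
      hP.continuous_upper.continuousOn (fun t ht => ?_) hP0 τ L)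
    · simpa using h1
    · have h2 := hC t
      rwa [abs_of_pos ht, sub_self, mul_zero, zero_div, Real.exp_zero, mul_one] at h2
  set M : ℝ → ℂ := fun t => ∑' j, c j * cexp ((Real.log j * t : ℝ) * I)
  set N : ℝ → ℂ := fun t => M t * cexp ((τ * Real.log t - κ * t : ℝ) * I)
  set Kf := reflKernel a omega lam mu Q
  set D : ℝ → ℂ := fun t => upper Kf t - omega * K * N t
  set S := ∑' j, ‖c j‖
  have hM : ∀ t, ‖M t‖ ≤ S := fun t => tsum_of_norm_bounded hc.hasSum fun j => by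
    rw [norm_mul, Complex.norm_exp_ofReal_mul_I, mul_one]
  have hN : ∀ t, ‖N t‖ ≤ S := fun t => by
    simp only [N]
    rw [norm_mul, Complex.norm_exp_ofReal_mul_I, mul_one]
    exact hM t
  have hMc : Continuous M := continuous_tsum (fun j => by fun_prop) hc fun j t => by
    rw [norm_mul, Complex.norm_exp_ofReal_mul_I, mul_one]
  have hNc : ContinuousOn N (Ioi 0) := hMc.continuousOn.mul
    ((((Complex.continuous_ofReal.comp_continuousOn ((continuousOn_const.mul
      (Real.continuousOn_log.mono fun t ht => ne_of_gt ht)).sub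
      (continuous_const.mul continuous_id).continuousOn))).mul continuousOn_const).cexp)
  obtain ⟨C, hC0, hC⟩ := hflat.upper_le
  have hD0 : Tendsto D atTop (𝓝 0) := by
    have h1 := hK.sub_const K
    rw [sub_self] at h1
    have h2 := h1.norm.mul_const S
    rw [norm_zero, zero_mul] at h2
    refine squeeze_zero_norm (fun t => ?_) h2
    have e : D t = omega * ((reflRatio lam mu Q (pt (-(1 / 4)) t) *
        Complex.Gamma (pt (-(1 / 4)) t) * cexp ((π * t / 2 : ℝ) : ℂ) *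
          cexp ((κ * t - τ * Real.log t : ℝ) * I)) - K) * N t := by
      simp only [D, N, upper, Kf, reflKernel, conj_series_line, M, c]
      have e1 : cexp ((κ * t - τ * Real.log t : ℝ) * I) *
          cexp ((τ * Real.log t - κ * t : ℝ) * I) = 1 := by
        rw [← Complex.exp_add, ← Complex.exp_zero]
        congr 1
        push_cast
        ring
      linear_combination -(omega * reflRatio lam mu Q (pt (-(1 / 4)) t) *
        Complex.Gamma (pt (-(1 / 4)) t) * cexp ((π * t / 2 : ℝ) : ℂ) *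
          ∑' j : ℕ, conj (LSeries.term a ((5 / 4 : ℝ) : ℂ) j) *
            cexp ((Real.log j * t : ℝ) * I)) * e1
    rw [e, norm_mul, norm_mul, h.norm_omega, one_mul]
    exact mul_le_mul_of_nonneg_left (hN t) (norm_nonneg _)
  have hDb : ∀ t, 0 < t → ‖D t‖ ≤ C + ‖K‖ * S := fun t ht => by
    refine (norm_sub_le _ _).trans (add_le_add ?_ ?_)
    · have h2 := hC t
      rwa [abs_of_pos ht, sub_self, mul_zero, zero_div, Real.exp_zero, mul_one] at h2
    · rw [norm_mul, norm_mul, h.norm_omega, one_mul]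
      exact mul_le_mul_of_nonneg_left (hN t) (norm_nonneg _)
  have hDc : ContinuousOn D (Ioi 0) :=
    hflat.continuous_upper.continuousOn.sub (continuousOn_const.mul hNc)
  have hmain0 : Tendsto (fun u : ℝ => oscWeight τ u *
      ∫ t in Ioi (0 : ℝ), upper Kf t * cexp (-(t : ℂ) * (u + I * L))) (𝓝[>] 0)
      (𝓝 (omega * K * (hitSum a lam Q α * Complex.Gamma (1 + τ * I)))) := by
    have h1 := (tendsto_laplace_zero hDc hDb hD0 τ L).add
      ((tendsto_model hc (fun j => Real.log j) τ κ L).const_mul (omega * K))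
    rw [zero_add] at h1
    refine h1.congr' ?_
    filter_upwards [self_mem_nhdsWithin] with u hu
    rw [mem_Ioi] at hu
    have hint : ∀ {f : ℝ → ℂ} {B : ℝ}, ContinuousOn f (Ioi 0) → (∀ t, 0 < t → ‖f t‖ ≤ B) →
        IntegrableOn (fun t => f t * cexp (-(t : ℂ) * (u + I * L))) (Ioi 0) := by
      intro f B hf hB
      refine ((exp_neg_integrableOn_Ioi 0 hu).const_mul B).mono'
        ((hf.mul (by fun_prop : Continuous fun t : ℝ =>
          cexp (-(t : ℂ) * (u + I * L))).continuousOn).aestronglyMeasurable measurableSet_Ioi) ?_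
      filter_upwards [ae_restrict_mem measurableSet_Ioi] with t ht
      rw [norm_mul, norm_osc, neg_mul]
      exact mul_le_mul_of_nonneg_right (hB t ht) (Real.exp_nonneg _)
    rw [← mul_left_comm, ← mul_add, ← integral_const_mul (omega * K),
      ← integral_add (hint hDc hDb) ((hint hNc fun t _ => hN t).const_mul _)]
    congr 1
    refine setIntegral_congr_fun measurableSet_Ioi fun t _ => ?_
    simp only [D, N, M]
    ring
  have hall := ((hflat.tendsto_lineMellin (-(1 / 4)) τ hα hmain0).add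
    (hneg hP₁ (5 / 4))).sub (hneg hP₂ (-(1 / 4)))
  rw [add_zero, sub_zero] at hall
  have hu : Tendsto (fun x : ℝ => x / α) (𝓝[>] 0) (𝓝[>] 0) := by
    refine tendsto_nhdsWithin_iff.2 ⟨?_, ?_⟩
    · simpa using ((continuous_id.div_const α).tendsto (0 : ℝ)).mono_left
        (nhdsWithin_le_nhds (s := Ioi (0 : ℝ)))
    · filter_upwards [self_mem_nhdsWithin] with x hx using div_pos hx hα
  have hfin := (hall.comp hu).const_mul (oscWeight τ α)
  refine (Tendsto.congr' ?_ hfin).trans (le_of_eq ?_)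
  · filter_upwards [self_mem_nhdsWithin] with x hx
    rw [mem_Ioi] at hx
    rw [Function.comp_apply, hdec _ (by simpa using hx), mul_div_cancel₀ _ hα.ne', ← mul_add,
      ← mul_sub, ← mul_assoc, ← oscWeight_mul τ hα (div_pos hx hα), mul_div_cancel₀ _ hα.ne']
  · congr 1
    rw [show (-((-(1 / 4) : ℝ) : ℂ)) = ((1 / 4 : ℝ) : ℂ) by push_cast; ring, mul_cpow_I hα]
    ring

theorem hitSum_lattice {n : ℕ} (hn : n ≠ 0) :
    hitSum a lam Q (n * Real.exp (-rateK lam Q)) =
      conj (LSeries.term a ((5 / 4 : ℝ) : ℂ) n) := by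
  have hn' : (0 : ℝ) < n := Nat.cast_pos.2 (Nat.pos_of_ne_zero hn)
  rw [hitSum, tsum_eq_single n, if_pos]
  · rw [Real.log_mul hn'.ne' (Real.exp_pos _).ne', Real.log_exp]
    ring
  intro j hj
  rcases eq_or_ne j 0 with rfl | hj0
  · simp
  rw [if_neg]
  intro e
  rw [Real.log_mul hn'.ne' (Real.exp_pos _).ne', Real.log_exp, add_comm, neg_add_cancel_right] at e
  exact hj (Nat.cast_injective (Real.log_injOn_pos
    (Set.mem_Ioi.2 (Nat.cast_pos.2 (Nat.pos_of_ne_zero hj0))) (Set.mem_Ioi.2 hn') e))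

theorem exists_of_hitSum_ne_zero {α : ℝ} (hα : 0 < α) (hne : hitSum a lam Q α ≠ 0) :
    ∃ n : ℕ, n ≠ 0 ∧ α = n * Real.exp (-rateK lam Q) := by
  by_contra hno
  push Not at hno
  refine hne ((tsum_congr fun j => ?_).trans tsum_zero)
  rcases eq_or_ne j 0 with rfl | hj
  · simp
  refine if_neg fun e => hno j hj ?_
  have hj' : (0 : ℝ) < j := Nat.cast_pos.2 (Nat.pos_of_ne_zero hj)
  rw [← Real.exp_log hj', e, Real.exp_add, Real.exp_log hα, Real.exp_neg]
  field_simp

theorem two_pi_exp_rateK (hlam : ∀ j, 0 < lam j) (hQ : 0 < Q) :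
    2 * π * Real.exp (rateK lam Q) = 2 * π * Q ^ 2 * ∏ j, lam j ^ (2 * lam j) := by
  have h1 : Real.exp (2 * Real.log Q) = Q ^ 2 := by
    rw [two_mul, Real.exp_add, Real.exp_log hQ, sq]
  have h2 : Real.exp (2 * ∑ j, lam j * Real.log (lam j)) = ∏ j, lam j ^ (2 * lam j) := by
    rw [Finset.mul_sum, Real.exp_sum]
    refine Finset.prod_congr rfl fun j _ => ?_
    rw [Real.rpow_def_of_pos (hlam j)]
    ring_nf
  rw [rateK, Real.exp_add, h1, h2]
  ring

/-- **Kaczorowski–Perelli in degree one.** -/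
theorem exists_period (h : HasFunctionalEquation a m E lam mu Q omega) (hd : degree lam = 1)
    {n₀ : ℕ} (hn₀ : n₀ ≠ 0) (ha : a n₀ ≠ 0) :
    ∃ q : ℕ, 0 < q ∧ (q : ℝ) = 2 * π * Q ^ 2 * ∏ j, lam j ^ (2 * lam j) ∧
      ∀ n : ℕ, n ≠ 0 →
        a (n + q) * ((n + q : ℕ) : ℂ) ^ (((2 * ∑ j, (mu j).im : ℝ) : ℂ) * I) =
          a n * (n : ℂ) ^ (((2 * ∑ j, (mu j).im : ℝ) : ℂ) * I) := by
  obtain ⟨B, hB, hlim⟩ := exists_limit h hd
  set τ := shiftT mu
  set w : ℝ → ℂ := fun α => oscWeight τ α * (α : ℂ) ^ ((1 / 4 : ℝ) : ℂ)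
  have hw : ∀ α : ℝ, 0 < α → w α ≠ 0 := fun α hα => mul_ne_zero
    (mul_ne_zero (ofReal_ne_zero.2 hα.ne') (Complex.exp_ne_zero _))
    (cpow_ne_zero_iff.2 (Or.inl (ofReal_ne_zero.2 hα.ne')))
  have hper : ∀ α : ℝ, 0 < α →
      w (α + 2 * π) * hitSum a lam Q (α + 2 * π) = w α * hitSum a lam Q α := by
    intro α hα
    have hα' : 0 < α + 2 * π := by positivity
    refine mul_left_cancel₀ hB ?_
    simp only [w, ← mul_assoc] at hlim ⊢

    refine tendsto_nhds_unique ((hlim _ hα').congr fun x => ?_) (hlim α hα)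
    rw [show (x : ℂ) + ((α + 2 * π : ℝ) : ℂ) * I = (x : ℂ) + α * I + ((1 : ℕ) : ℂ) * (2 * π * I) by
      push_cast; ring, FA.DegreeGap.expSeries_add_period]
  set c := Real.exp (-rateK lam Q)
  have hcpos : 0 < c := Real.exp_pos _
  obtain ⟨g, hg⟩ : ∃ g : ℕ → ℂ, g = fun n : ℕ => conj (a n) * (n : ℂ) ^ ((τ : ℂ) * I) := ⟨_, rfl⟩
  have hwg : ∀ n : ℕ, n ≠ 0 → w (n * c) * hitSum a lam Q (n * c) = w c * g n := by
    intro n hn
    have hn' : (0 : ℝ) < n := Nat.cast_pos.2 (Nat.pos_of_ne_zero hn)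
    have hnC : (n : ℂ) ≠ 0 := Nat.cast_ne_zero.2 hn
    have h1 : (n : ℂ) * (n : ℂ) ^ ((1 / 4 : ℝ) : ℂ) = (n : ℂ) ^ ((5 / 4 : ℝ) : ℂ) := by
      rw [show ((5 / 4 : ℝ) : ℂ) = 1 + ((1 / 4 : ℝ) : ℂ) by push_cast; norm_num, cpow_add _ _ hnC,
        cpow_one]
    have h2 : conj ((n : ℂ) ^ ((5 / 4 : ℝ) : ℂ)) = (n : ℂ) ^ ((5 / 4 : ℝ) : ℂ) := by
      rw [← ofReal_natCast, ← ofReal_cpow (Nat.cast_nonneg n), conj_ofReal]
    have h3 : (n : ℂ) ^ ((τ : ℂ) * I) = cexp ((τ * Real.log n : ℝ) * I) := by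
      rw [cpow_def_of_ne_zero hnC, ← ofReal_natCast, ← ofReal_log (Nat.cast_nonneg n)]
      push_cast
      ring_nf
    rw [hitSum_lattice hn, LSeries.term_of_ne_zero hn, map_div₀, h2, ← h1]
    simp only [w, hg, oscWeight_mul τ hn' hcpos, ofReal_mul,
      mul_cpow_ofReal_nonneg hn'.le hcpos.le, h3]
    rw [oscWeight, ofReal_natCast]
    have hq : (n : ℂ) ^ ((1 / 4 : ℝ) : ℂ) ≠ 0 := cpow_ne_zero_iff.2 (Or.inl hnC)
    field_simp
    push_cast
    ring_nf
  have hg0 : g n₀ ≠ 0 := by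
    rw [hg]
    exact mul_ne_zero ((map_ne_zero _).2 ha) (cpow_ne_zero_iff.2 (Or.inl (Nat.cast_ne_zero.2 hn₀)))
  have hpos : ∀ n : ℕ, n ≠ 0 → 0 < (n : ℝ) * c := fun n hn =>
    mul_pos (Nat.cast_pos.2 (Nat.pos_of_ne_zero hn)) hcpos
  have h2 : hitSum a lam Q (n₀ * c + 2 * π) ≠ 0 := by
    intro e
    have h1 := hper _ (hpos n₀ hn₀)
    rw [e, mul_zero, hwg n₀ hn₀] at h1
    exact hg0 ((mul_eq_zero.1 h1.symm).resolve_left (hw c hcpos))
  obtain ⟨n', hn', he⟩ := exists_of_hitSum_ne_zero (by have := hpos n₀ hn₀; positivity) h2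
  have hlt : n₀ < n' := by
    have h3 : (n₀ : ℝ) * c < n' * c := by rw [← he]; linarith [Real.pi_pos]
    exact_mod_cast lt_of_mul_lt_mul_right h3 hcpos.le
  refine ⟨n' - n₀, Nat.sub_pos_of_lt hlt, ?_, fun n hn => ?_⟩
  · rw [← two_pi_exp_rateK h.lam_pos h.Q_pos, Nat.cast_sub hlt.le]
    have e : Real.exp (rateK lam Q) * c = 1 := by
      rw [← Real.exp_add, add_neg_cancel, Real.exp_zero]
    linear_combination Real.exp (rateK lam Q) * he.symm +
      ((n₀ : ℝ) - n') * e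
  · have hq : ((n + (n' - n₀) : ℕ) : ℝ) * c = n * c + 2 * π := by
      rw [Nat.cast_add, Nat.cast_sub hlt.le]
      linarith
    have hne : n + (n' - n₀) ≠ 0 := by omega
    have h4 := hper _ (hpos n hn)
    rw [← hq, hwg n hn, hwg _ hne] at h4
    have h5 := congrArg conj (mul_left_cancel₀ (hw c hcpos) h4)
    simp only [hg, map_mul, Complex.conj_conj] at h5
    have h6 : ∀ k : ℕ, k ≠ 0 → conj ((k : ℂ) ^ ((τ : ℂ) * I)) =
        (k : ℂ) ^ (((2 * ∑ j, (mu j).im : ℝ) : ℂ) * I) := fun k hk => by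
      have hk' : (k : ℂ) ≠ 0 := Nat.cast_ne_zero.2 hk
      rw [cpow_def_of_ne_zero hk', cpow_def_of_ne_zero hk', ← Complex.exp_conj, ← ofReal_natCast,
        ← ofReal_log (Nat.cast_nonneg k)]
      simp only [map_mul, conj_ofReal, conj_I, τ, shiftT]
      push_cast
      ring_nf
    rwa [h6 _ hne, h6 n hn] at h5

end FA.DegreeOne

end
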