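import Fermat.Agent.DegreeOne.Stirling
import Fermat.Agent.DegreeGap.Inversion

/-!
# Inverse Mellin integrals in a half plane

An integral `∫ K t z^(-(A + it))` with `K` no larger than `(1 + |t|)^N exp (-π |t| / 2)` is
holomorphic in `re z > 0`; for `K = L Γ` on `re s = A > 1` it is `∑ a n exp (-n z)`.
-/

set_option autoImplicit false

noncomputable section

open Complex MeasureTheory Filter Set Topology
open scoped Real
open FA.DegreeGap (pt pt_re pt_im continuous_pt expTerm expSeries)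

namespace FA.DegreeOne

variable {a : ℕ → ℂ}

/-- `∫ K t z^(-(A + i t))`. -/
def lineMellin (A : ℝ) (K : ℝ → ℂ) (z : ℂ) : ℂ := ∫ t : ℝ, K t * z ^ (-(pt A t))

/-- The kernels allowed. -/
def IsKernel (K : ℝ → ℂ) : Prop :=
  Continuous K ∧ ∃ (N : ℕ) (C : ℝ), 0 ≤ C ∧
    ∀ t, ‖K t‖ ≤ C * (1 + |t|) ^ N * Real.exp (-(π * |t| / 2))

theorem norm_cpow_neg_pt {z : ℂ} (hz : z ≠ 0) (A t : ℝ) :
    ‖z ^ (-(pt A t))‖ = ‖z‖ ^ (-A) * Real.exp (z.arg * t) := by
  rw [norm_cpow_of_ne_zero hz, neg_re, pt_re, neg_im, pt_im, div_eq_mul_inv, ← Real.exp_neg,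
    mul_neg, neg_neg]

theorem ne_zero_of_re_pos {z : ℂ} (hz : 0 < z.re) : z ≠ 0 := fun e => by simp [e] at hz

theorem abs_arg_le {z : ℂ} {b M : ℝ} (hb : 0 < b) (h1 : b ≤ z.re) (h2 : |z.im| ≤ M) :
    |z.arg| ≤ Real.arctan (M / b) := by
  rw [FA.RiemannMangoldt.arg_eq_arctan (hb.trans_le h1)]
  have h : |z.im / z.re| ≤ M / b := by
    rw [abs_div, abs_of_pos (hb.trans_le h1)]
    exact div_le_div₀ ((abs_nonneg _).trans h2) h2 hb h1
  rw [abs_le] at h ⊢
  rw [← Real.arctan_neg]
  exact ⟨Real.arctan_mono h.1, Real.arctan_mono h.2⟩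

theorem exp_arg_le {δ φ t : ℝ} (h : |φ| ≤ π / 2 - δ) :
    Real.exp (-(π * |t| / 2)) * Real.exp (φ * t) ≤ Real.exp (-(δ * |t|)) := by
  rw [← Real.exp_add]
  refine Real.exp_le_exp.2 ?_
  have h1 : φ * t ≤ (π / 2 - δ) * |t| :=
    (le_abs_self _).trans (by rw [abs_mul]; exact mul_le_mul_of_nonneg_right h (abs_nonneg t))
  linarith

theorem rpow_le_add {x a b : ℝ} (ha : 0 < a) (h1 : a ≤ x) (h2 : x ≤ b) (p : ℝ) :
    x ^ p ≤ a ^ p + b ^ p := by
  have hx : 0 < x := ha.trans_le h1
  have := Real.rpow_nonneg ha.le p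
  have := Real.rpow_nonneg (hx.le.trans h2) p
  rcases le_total 0 p with hp | hp
  · linarith [Real.rpow_le_rpow hx.le h2 hp]
  · linarith [Real.rpow_le_rpow_of_nonpos ha h1 hp]

theorem continuous_lineMellin_integrand {K : ℝ → ℂ} (hK : Continuous K) (A : ℝ) {z : ℂ}
    (hz : 0 < z.re) : Continuous fun t => K t * z ^ (-(pt A t)) :=
  hK.mul ((continuous_pt A).neg.const_cpow (Or.inl (ne_zero_of_re_pos hz)))

theorem IsKernel.integrable {K : ℝ → ℂ} (hK : IsKernel K) (A : ℝ) {z : ℂ} (hz : 0 < z.re) :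
    Integrable fun t => K t * z ^ (-(pt A t)) := by
  obtain ⟨hc, N, C, hC0, hC⟩ := hK
  set δ := π / 2 - |z.arg|
  have hδ : 0 < δ := sub_pos.2 (Complex.abs_arg_lt_pi_div_two_iff.2 (Or.inl hz))
  refine FA.DegreeGap.integrable_of_decay (continuous_lineMellin_integrand hc A hz) N hδ
    (C := C * ‖z‖ ^ (-A)) fun t => ?_
  rw [norm_mul, norm_cpow_neg_pt (ne_zero_of_re_pos hz)]
  calc ‖K t‖ * (‖z‖ ^ (-A) * Real.exp (z.arg * t))
      ≤ C * (1 + |t|) ^ N * Real.exp (-(π * |t| / 2)) * (‖z‖ ^ (-A) * Real.exp (z.arg * t)) :=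
        mul_le_mul_of_nonneg_right (hC t) (by positivity)
    _ = C * ‖z‖ ^ (-A) * (1 + |t|) ^ N *
        (Real.exp (-(π * |t| / 2)) * Real.exp (z.arg * t)) := by ring
    _ ≤ _ := mul_le_mul_of_nonneg_left (exp_arg_le (sub_sub_cancel _ _).ge) (by positivity)

theorem IsKernel.differentiableOn_lineMellin {K : ℝ → ℂ} (hK : IsKernel K) (A : ℝ) :
    DifferentiableOn ℂ (lineMellin A K) {z | 0 < z.re} := by
  intro z hz
  have hz' : 0 < z.re := hz
  obtain ⟨hc, N, C, hC0, hC⟩ := id hK
  set b := z.re / 2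
  have hb : 0 < b := by simp only [b]; linarith
  set M := ‖z‖ + b
  set δ := π / 2 - Real.arctan (M / b)
  have hδ : 0 < δ := sub_pos.2 (Real.arctan_lt_pi_div_two _)
  obtain ⟨B, hB0, hB⟩ := FA.DegreeGap.exists_poly_mul_exp_le (N + 1) hδ
  set P := b ^ (-(A + 1)) + M ^ (-(A + 1))
  have hP : 0 ≤ P := add_nonneg (Real.rpow_nonneg hb.le _) (Real.rpow_nonneg (by positivity) _)
  refine ((hasDerivAt_integral_of_dominated_loc_of_deriv_le
    (F := fun w t => K t * w ^ (-(pt A t)))
    (F' := fun w t => K t * (-(pt A t) * w ^ (-(pt A t) - 1)))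
    (bound := fun t => C * (|A| + 1) * P * B * (1 + t ^ 2)⁻¹)
    (Metric.ball_mem_nhds z hb) ?_ (hK.integrable A hz') ?_ (Eventually.of_forall fun t w hw => ?_)
    (integrable_inv_one_add_sq.const_mul _) (Eventually.of_forall fun t w hw => ?_)).2
      ).differentiableAt.differentiableWithinAt
  · filter_upwards [(isOpen_lt continuous_const Complex.continuous_re).mem_nhds hz] with w hw
    exact (continuous_lineMellin_integrand hc A hw).aestronglyMeasurable
  · exact (hc.mul ((continuous_pt A).neg.mul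
      (((continuous_pt A).neg.sub continuous_const).const_cpow
        (Or.inl (ne_zero_of_re_pos hz'))))).aestronglyMeasurable
  all_goals rw [Metric.mem_ball, dist_eq_norm] at hw
  all_goals
    have h1 : b ≤ w.re := by
      have := (abs_le.1 ((Complex.abs_re_le_norm (w - z)).trans hw.le)).1
      simp only [sub_re, b] at this ⊢
      linarith
  · have h2 : |w.im| ≤ M := (Complex.abs_im_le_norm w).trans
      ((norm_le_norm_add_norm_sub' w z).trans (by simp only [M]; linarith))
    have hw0 : w ≠ 0 := ne_zero_of_re_pos (hb.trans_le h1)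
    rw [norm_mul, norm_mul, norm_neg,
      show -(pt A t) - 1 = -(pt (A + 1) t) by simp only [pt]; push_cast; ring,
      norm_cpow_neg_pt hw0]
    have h3 : ‖pt A t‖ ≤ (|A| + 1) * (1 + |t|) := by
      refine (norm_le_abs_re_add_abs_im _).trans ?_
      rw [pt_re, pt_im]
      nlinarith [abs_nonneg A, abs_nonneg t, mul_nonneg (abs_nonneg A) (abs_nonneg t)]
    have h4 : ‖w‖ ^ (-(A + 1)) ≤ P :=
      rpow_le_add hb (h1.trans (Complex.re_le_norm w))
        ((norm_le_norm_add_norm_sub' w z).trans (by simp only [M]; linarith)) _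
    calc ‖K t‖ * (‖pt A t‖ * (‖w‖ ^ (-(A + 1)) * Real.exp (w.arg * t)))
        ≤ C * (1 + |t|) ^ N * Real.exp (-(π * |t| / 2)) *
            ((|A| + 1) * (1 + |t|) * (P * Real.exp (w.arg * t))) := by
          refine mul_le_mul (hC t) (mul_le_mul h3
            (mul_le_mul_of_nonneg_right h4 (Real.exp_nonneg _))
            (by positivity) (by positivity)) (by positivity) (by positivity)
      _ = C * (|A| + 1) * P * ((1 + |t|) ^ (N + 1) *
            (Real.exp (-(π * |t| / 2)) * Real.exp (w.arg * t))) := by ring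
      _ ≤ C * (|A| + 1) * P * ((1 + |t|) ^ (N + 1) * Real.exp (-(δ * |t|))) := by
          gcongr
          exact exp_arg_le ((abs_arg_le hb h1 h2).trans (sub_sub_cancel _ _).ge)
      _ ≤ C * (|A| + 1) * P * (B * (1 + t ^ 2)⁻¹) :=
          mul_le_mul_of_nonneg_left (hB t) (by positivity)
      _ = _ := by ring
  · exact ((hasDerivAt_id' w).cpow_const (Or.inl (hb.trans_le h1))).const_mul (K t)
      |>.congr_deriv (by ring)

theorem integrable_Gamma_line {A : ℝ} (hA : 0 < A) :
    Integrable fun t => Complex.Gamma (pt A t) := by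
  obtain ⟨C, hC0, hC⟩ := exists_norm_Gamma_le (A := A) fun n => by
    linarith [Nat.cast_nonneg (α := ℝ) n]
  refine FA.DegreeGap.integrable_of_decay (FA.DegreeGap.continuous_Gamma_pt hA) ⌈A⌉₊ (C := C)
    (ε := π / 2) (by positivity) fun t => ?_
  refine (hC t).trans ?_
  rw [← Real.rpow_natCast, show π / 2 * |t| = π * |t| / 2 by ring]
  gcongr
  · linarith [abs_nonneg t]
  · linarith [Nat.le_ceil A]

theorem Gamma_inversion {A : ℝ} (hA : 0 < A) {u : ℝ} (hu : 0 < u) :
    ∫ t : ℝ, (u : ℂ) ^ (-(pt A t)) * Complex.Gamma (pt A t) = 2 * π * Real.exp (-u) := by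
  have hm : ∀ t : ℝ, mellin (fun x : ℝ => ((Real.exp (-x) : ℝ) : ℂ)) (A + t * I) =
      Complex.Gamma (pt A t) := fun t => by
    rw [← GammaIntegral_eq_mellin, ← Complex.Gamma_eq_integral (by simpa using hA), pt]
  have h := mellinInv_mellin_eq A (fun x : ℝ => ((Real.exp (-x) : ℝ) : ℂ)) hu
    ((GammaIntegral_convergent (s := (A : ℂ)) (by simpa using hA)).congr_fun
      (fun x _ => by simp [mul_comm]) measurableSet_Ioi)
    ((integrable_Gamma_line hA).congr (Eventually.of_forall fun t => (hm t).symm))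
    (by fun_prop)
  rw [mellinInv] at h
  simp only [hm, smul_eq_mul, Complex.real_smul] at h
  rw [← h]
  push_cast
  field_simp
  rfl

theorem norm_series_le {A : ℝ} (hs : LSeriesSummable a (A : ℂ)) (t : ℝ) :
    ‖LSeries a (pt A t)‖ ≤ ∑' n, ‖LSeries.term a (A : ℂ) n‖ :=
  tsum_of_norm_bounded hs.norm.hasSum fun n =>
    LSeries.norm_term_le_of_re_le_re a (by simp [pt]) n

theorem continuous_series_line {A : ℝ} (hs : LSeriesSummable a (A : ℂ)) :
    Continuous fun t => LSeries a (pt A t) := by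
  refine continuous_tsum (fun n => ?_) hs.norm
    fun n t => LSeries.norm_term_le_of_re_le_re a (by simp [pt]) n
  rcases eq_or_ne n 0 with rfl | hn
  · simp only [LSeries.term_zero]
    exact continuous_const
  · simp only [LSeries.term_of_ne_zero hn]
    exact continuous_const.div ((continuous_pt A).const_cpow (Or.inl (Nat.cast_ne_zero.2 hn)))
      fun t => cpow_ne_zero_iff.2 (Or.inl (Nat.cast_ne_zero.2 hn))

theorem isKernel_series {A : ℝ} (hA : 0 < A) (hs : LSeriesSummable a (A : ℂ)) :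
    IsKernel fun t => LSeries a (pt A t) * Complex.Gamma (pt A t) := by
  refine ⟨(continuous_series_line hs).mul (FA.DegreeGap.continuous_Gamma_pt hA), ?_⟩
  obtain ⟨C, hC0, hC⟩ := exists_norm_Gamma_le (A := A) fun n => by
    linarith [Nat.cast_nonneg (α := ℝ) n]
  set S := ∑' n, ‖LSeries.term a (A : ℂ) n‖
  have hS : 0 ≤ S := tsum_nonneg fun _ => norm_nonneg _
  refine ⟨⌈A⌉₊, S * C, mul_nonneg hS hC0, fun t => ?_⟩
  rw [norm_mul]
  refine (mul_le_mul (norm_series_le hs t) (hC t) (norm_nonneg _) hS).trans ?_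
  rw [mul_assoc S C, ← mul_assoc, ← Real.rpow_natCast]
  gcongr
  · linarith [abs_nonneg t]
  · linarith [Nat.le_ceil A]

/-- **Inversion of the series.** -/
theorem lineMellin_series {A : ℝ} (hA : 0 < A) (hs : LSeriesSummable a (A : ℂ)) {x : ℝ}
    (hx : 0 < x) : lineMellin A (fun t => LSeries a (pt A t) * Complex.Gamma (pt A t)) x =
      2 * π * expSeries a 0 x := by
  set F : ℕ → ℝ → ℂ := fun n t => LSeries.term a (pt A t) n * Complex.Gamma (pt A t) *
    (x : ℂ) ^ (-(pt A t))
  have hnorm : ∀ n t, ‖F n t‖ =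
      ‖LSeries.term a (A : ℂ) n‖ * x ^ (-A) * ‖Complex.Gamma (pt A t)‖ := fun n t => by
    simp only [F, norm_mul, norm_cpow_eq_rpow_re_of_pos hx, neg_re, pt_re]
    rw [LSeries.norm_term_eq, LSeries.norm_term_eq, pt_re, ofReal_re]
    ring
  have hint : ∀ n, Integrable (F n) := fun n => by
    refine ((integrable_Gamma_line hA).norm.const_mul (‖LSeries.term a (A : ℂ) n‖ * x ^ (-A))).mono'
      (Continuous.aestronglyMeasurable ?_) (Eventually.of_forall fun t => (hnorm n t).le)
    refine (Continuous.mul ?_ (FA.DegreeGap.continuous_Gamma_pt hA)).mul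
      ((continuous_pt _).neg.const_cpow (Or.inl (ofReal_ne_zero.2 hx.ne')))
    rcases eq_or_ne n 0 with rfl | hn
    · simp only [LSeries.term_zero]
      exact continuous_const
    · simp only [LSeries.term_of_ne_zero hn]
      exact continuous_const.div ((continuous_pt _).const_cpow (Or.inl (Nat.cast_ne_zero.2 hn)))
        fun t => cpow_ne_zero_iff.2 (Or.inl (Nat.cast_ne_zero.2 hn))
  have hsum : Summable fun n => ∫ t, ‖F n t‖ := by
    simp only [hnorm, integral_const_mul]
    exact (hs.norm.mul_right _).mul_right _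
  have key := integral_tsum_of_summable_integral_norm hint hsum
  have hpoint : ∀ t, ∑' n, F n t = LSeries a (pt A t) *
      Complex.Gamma (pt A t) * (x : ℂ) ^ (-(pt A t)) := fun t => by
    simp only [F, tsum_mul_right]
    rfl
  simp only [hpoint] at key
  rw [lineMellin, ← key, expSeries, ← tsum_mul_left]
  refine tsum_congr fun n => ?_
  rcases eq_or_ne n 0 with rfl | hn
  · simp [F, expTerm]
  have hn0 : (0 : ℝ) < n := Nat.cast_pos.2 (Nat.pos_of_ne_zero hn)
  have hn' : (n : ℂ) ^ (0 : ℕ) = 1 := pow_zero _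
  have hFt : ∀ t, F n t = a n * (((n * x : ℝ) : ℂ) ^ (-(pt A t)) * Complex.Gamma (pt A t)) :=
      fun t => by
    simp only [F, LSeries.term_of_ne_zero hn, ofReal_mul]
    rw [mul_cpow_ofReal_nonneg hn0.le hx.le, ofReal_natCast, cpow_neg (n : ℂ)]
    ring
  simp only [hFt, integral_const_mul]
  rw [Gamma_inversion hA (mul_pos hn0 hx), expTerm, if_neg hn, hn']
  push_cast
  ring

end FA.DegreeOne

end
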