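import Fermat.Agent.DegreeOne.Main
import Mathlib.NumberTheory.LSeries.ZMod
import Mathlib.NumberTheory.LSeries.RiemannZeta

/-!
# Degree one series are shifted periodic Dirichlet series
-/

set_option autoImplicit false

noncomputable section

open Complex
open scoped Real
open FA.DegreeGap (degree HasFunctionalEquation)

namespace FA.DegreeOne

variable {a : ℕ → ℂ} {m : ℕ} {E : ℂ → ℂ} {r : ℕ} {lam : Fin r → ℝ} {mu : Fin r → ℂ} {Q : ℝ}
  {omega : ℂ}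

theorem periodic_mul {f : ℕ → ℂ} {q : ℕ} (h : ∀ n, n ≠ 0 → f (n + q) = f n) {n : ℕ} (hn : n ≠ 0) :
    ∀ k, f (n + k * q) = f n
  | 0 => by simp
  | k + 1 => by rw [add_one_mul, ← add_assoc, h _ (by omega), periodic_mul h hn k]

theorem exists_zmod {f : ℕ → ℂ} {q : ℕ} [NeZero q] (h : ∀ n, n ≠ 0 → f (n + q) = f n) :
    ∃ g : ZMod q → ℂ, ∀ n, n ≠ 0 → f n = g n := by
  refine ⟨fun j => f (j.val + q), fun n hn => ?_⟩
  dsimp only
  rw [ZMod.val_natCast]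
  have h1 := periodic_mul h (n := n % q + q) (Nat.ne_of_gt (by
    have := Nat.pos_of_ne_zero (NeZero.ne q); omega)) (n / q)
  rw [show n % q + q + n / q * q = n + q by
    have := Nat.mod_add_div n q; rw [mul_comm]; omega, h n hn] at h1
  exact h1

/-- The shift. -/
def twist (mu : Fin r → ℂ) : ℝ := 2 * ∑ j, (mu j).im

theorem exists_structure (h : HasFunctionalEquation a m E lam mu Q omega) (hd : degree lam = 1)
    {n₀ : ℕ} (hn₀ : n₀ ≠ 0) (ha : a n₀ ≠ 0) :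
    ∃ (q : ℕ) (_ : NeZero q) (g : ZMod q → ℂ),
      (q : ℝ) = 2 * π * Q ^ 2 * ∏ j, lam j ^ (2 * lam j) ∧
      (∀ n : ℕ, n ≠ 0 → a n * (n : ℂ) ^ ((twist mu : ℂ) * I) = g n) ∧
      ∀ s : ℂ, 1 < s.re → LSeries a s = ZMod.LFunction g (s + (twist mu : ℂ) * I) := by
  obtain ⟨q, hq, hqR, hper⟩ := exists_period h hd hn₀ ha
  have : NeZero q := ⟨hq.ne'⟩
  obtain ⟨g, hg⟩ := exists_zmod (f := fun n : ℕ => a n * (n : ℂ) ^ ((twist mu : ℂ) * I)) hper
  refine ⟨q, ⟨hq.ne'⟩, g, hqR, hg, fun s hs => ?_⟩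
  rw [ZMod.LFunction_eq_LSeries g (by simpa using hs), LSeries, LSeries]
  refine tsum_congr fun n => ?_
  rcases eq_or_ne n 0 with rfl | hn
  · simp
  have hn' : (n : ℂ) ≠ 0 := Nat.cast_ne_zero.2 hn
  rw [LSeries.term_of_ne_zero hn, LSeries.term_of_ne_zero hn, cpow_add _ _ hn', ← hg n hn]
  have h1 : (n : ℂ) ^ ((twist mu : ℂ) * I) ≠ 0 := cpow_ne_zero_iff.2 (Or.inl hn')
  field_simp

theorem norm_natCast_twist {n : ℕ} (hn : n ≠ 0) (θ : ℝ) : ‖(n : ℂ) ^ ((θ : ℂ) * I)‖ = 1 := by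
  rw [norm_natCast_cpow_of_pos (Nat.pos_of_ne_zero hn)]
  simp

theorem exists_bound (h : HasFunctionalEquation a m E lam mu Q omega) (hd : degree lam = 1) :
    ∃ C : ℝ, ∀ n : ℕ, n ≠ 0 → ‖a n‖ ≤ C := by
  by_cases hex : ∃ n₀ : ℕ, n₀ ≠ 0 ∧ a n₀ ≠ 0
  · obtain ⟨n₀, hn₀, ha⟩ := hex
    obtain ⟨q, hq, g, -, hg, -⟩ := exists_structure h hd hn₀ ha
    refine ⟨∑ j, ‖g j‖, fun n hn => ?_⟩
    rw [← mul_one ‖a n‖, ← norm_natCast_twist hn (twist mu), ← norm_mul, hg n hn]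
    exact Finset.single_le_sum (fun j _ => norm_nonneg (g j)) (Finset.mem_univ _)
  · push Not at hex
    exact ⟨0, fun n hn => by rw [hex n hn, norm_zero]⟩

theorem eq_zeta_of_conductor_one (h : HasFunctionalEquation a m E lam mu Q omega)
    (hd : degree lam = 1) (hq : 2 * π * Q ^ 2 * ∏ j, lam j ^ (2 * lam j) = 1) :
    (∀ n : ℕ, n ≠ 0 → a n = a 1 * (n : ℂ) ^ (-((twist mu : ℂ) * I))) ∧
      ∀ s : ℂ, 1 < s.re → LSeries a s = a 1 * riemannZeta (s + (twist mu : ℂ) * I) := by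
  have h1 : ∀ n : ℕ, n ≠ 0 → a n = a 1 * (n : ℂ) ^ (-((twist mu : ℂ) * I)) := by
    by_cases hex : ∃ n₀ : ℕ, n₀ ≠ 0 ∧ a n₀ ≠ 0
    · obtain ⟨n₀, hn₀, ha⟩ := hex
      obtain ⟨q, hq', g, hqR, hg, -⟩ := exists_structure h hd hn₀ ha
      have hq1 : q = 1 := by exact_mod_cast hqR.trans hq
      subst hq1
      intro n hn
      have e := (hg n hn).trans ((congrArg g (Subsingleton.elim _ _)).trans (hg 1 one_ne_zero).symm)
      rw [Nat.cast_one, one_cpow, mul_one] at e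
      rw [← e, cpow_neg, mul_inv_cancel_right₀]
      exact cpow_ne_zero_iff.2 (Or.inl (Nat.cast_ne_zero.2 hn))
    · push Not at hex
      intro n hn
      rw [hex n hn, hex 1 one_ne_zero, zero_mul]
  refine ⟨h1, fun s hs => ?_⟩
  rw [← LSeries_one_eq_riemannZeta (by simpa using hs), LSeries, LSeries, ← tsum_mul_left]
  refine tsum_congr fun n => ?_
  rcases eq_or_ne n 0 with rfl | hn
  · simp
  rw [LSeries.term_of_ne_zero hn, LSeries.term_of_ne_zero hn, h1 n hn, Pi.one_apply,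
    cpow_add _ _ (Nat.cast_ne_zero.2 hn), cpow_neg]
  field_simp

end FA.DegreeOne

end
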