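import Fermat.Agent.DegreeOne.Stirling
import Fermat.Agent.DegreeGap.Inversion

/-!
# The quotient of the Gamma factors in degree one

On a line `re s = σ` the quotient times `Γ s` is bounded by `exp (-π |t| / 2)`, and for `t → ∞` it
is `K exp (i (θ log t - κ t) - π t / 2) (1 + o 1)` with `K ≠ 0`.
-/

set_option autoImplicit false

noncomputable section

open Complex Filter Topology
open scoped Real ComplexConjugate
open FA.DegreeGap (pt pt_re pt_im continuous_pt degree HasFunctionalEquation)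

namespace FA.DegreeOne

variable {r : ℕ} {lam : Fin r → ℝ} {mu : Fin r → ℂ} {Q : ℝ}

/-- `conj (γ (1 - conj s)) / γ s`. -/
def reflRatio (lam : Fin r → ℝ) (mu : Fin r → ℂ) (Q : ℝ) (s : ℂ) : ℂ :=
  (Q : ℂ) ^ (1 - 2 * s) *
    ∏ j, conj (Complex.Gamma (lam j * (1 - conj s) + mu j)) * (Complex.Gamma (lam j * s + mu j))⁻¹

/-- The frequency. -/
def rateK (lam : Fin r → ℝ) (Q : ℝ) : ℝ := 2 * Real.log Q + 2 * ∑ j, lam j * Real.log (lam j)

/-- The exponent. -/
def shiftT (mu : Fin r → ℂ) : ℝ := -2 * ∑ j, (mu j).im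

theorem arg_left (l : ℝ) (μ : ℂ) (σ t : ℝ) :
    (l : ℂ) * pt σ t + μ = ((l * σ + μ.re : ℝ) : ℂ) + ((l * t + μ.im : ℝ) : ℂ) * I := by
  apply Complex.ext <;> simp [pt]

theorem arg_right (l : ℝ) (μ : ℂ) (σ t : ℝ) :
    (l : ℂ) * (1 - conj (pt σ t)) + μ =
      ((l * (1 - σ) + μ.re : ℝ) : ℂ) + ((l * t + μ.im : ℝ) : ℂ) * I := by
  apply Complex.ext <;> simp [pt]

theorem ne_neg_nat {x : ℝ} (hx : 0 < x) (n : ℕ) : x ≠ -(n : ℝ) := by
  have : (0 : ℝ) ≤ n := Nat.cast_nonneg n
  linarith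

theorem continuous_reflRatio_line (hlam : ∀ j, 0 < lam j) (hmu : ∀ j, 0 ≤ (mu j).re) (hQ : 0 < Q)
    {σ : ℝ} (hσ : σ < 0) : Continuous fun t => reflRatio lam mu Q (pt σ t) := by
  simp only [reflRatio, arg_left, arg_right]
  refine ((continuous_const.sub (continuous_const.mul (continuous_pt σ))).const_cpow
    (Or.inl (ofReal_ne_zero.2 hQ.ne'))).mul (continuous_finsetProd _ fun j _ => ?_)
  have hA : 0 < lam j * (1 - σ) + (mu j).re := by
    have := mul_pos (hlam j) (show 0 < 1 - σ by linarith)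
    linarith [hmu j]
  refine (Complex.continuous_conj.comp ?_).mul ?_
  · exact (continuous_Gamma_line (ne_neg_nat hA)).comp (by fun_prop)
  · exact (continuous_inv_Gamma_line _).comp (by fun_prop)

theorem one_add_abs_le (l b t : ℝ) : 1 + |l * t + b| ≤ (1 + |l| + |b|) * (1 + |t|) := by
  have h := abs_add_le (l * t) b
  rw [abs_mul] at h
  nlinarith [abs_nonneg l, abs_nonneg b, abs_nonneg t, mul_nonneg (abs_nonneg b) (abs_nonneg t)]

/-- The quotient grows like `|t| ^ (1/2 - σ)`. -/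
theorem exists_norm_reflRatio_le (hlam : ∀ j, 0 < lam j) (hmu : ∀ j, 0 ≤ (mu j).re) (hQ : 0 < Q)
    (hd : degree lam = 1) {σ : ℝ} (hσ : σ < 0) : ∃ C : ℝ, 0 ≤ C ∧ ∀ t : ℝ,
      ‖reflRatio lam mu Q (pt σ t)‖ ≤ C * (1 + |t|) ^ (1 / 2 - σ) := by
  have hA : ∀ j, 0 < lam j * (1 - σ) + (mu j).re := fun j => by
    have := mul_pos (hlam j) (show 0 < 1 - σ by linarith)
    linarith [hmu j]
  choose C₁ hC₁0 hC₁ using fun j => exists_norm_Gamma_le (ne_neg_nat (hA j))
  choose C₂ hC₂0 hC₂ using fun j => exists_norm_inv_Gamma_line (lam j * σ + (mu j).re)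
  set p : Fin r → ℝ := fun j => lam j * (1 - 2 * σ)
  have hp : ∀ j, 0 ≤ p j := fun j => mul_nonneg (hlam j).le (by linarith)
  have hD : ∀ j, (0 : ℝ) ≤ 1 + |lam j| + |(mu j).im| := fun j => by positivity
  refine ⟨Q ^ (1 - 2 * σ) * ∏ j, C₁ j * C₂ j * (1 + |lam j| + |(mu j).im|) ^ p j,
    mul_nonneg (Real.rpow_nonneg hQ.le _) (Finset.prod_nonneg fun j _ =>
      mul_nonneg (mul_nonneg (hC₁0 j) (hC₂0 j)) (Real.rpow_nonneg (hD j) _)), fun t => ?_⟩
  rw [reflRatio, norm_mul, norm_prod, norm_cpow_eq_rpow_re_of_pos hQ,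
    show (1 - 2 * pt σ t).re = 1 - 2 * σ by simp [pt], mul_assoc]
  refine mul_le_mul_of_nonneg_left ?_ (Real.rpow_nonneg hQ.le _)
  have hsum : ∑ j, p j = 1 / 2 - σ := by
    rw [degree] at hd
    simp only [p, ← Finset.sum_mul]
    rw [show ∑ j, lam j = 1 / 2 by linarith]
    ring
  rw [← hsum, Real.rpow_sum_of_pos (by positivity), ← Finset.prod_mul_distrib]
  refine Finset.prod_le_prod (fun j _ => norm_nonneg _) fun j _ => ?_
  rw [norm_mul, Complex.norm_conj, arg_left, arg_right]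
  set y := lam j * t + (mu j).im
  refine (mul_le_mul (hC₁ j y) (hC₂ j y) (norm_nonneg _) ((norm_nonneg _).trans (hC₁ j y))).trans ?_
  have hy : (0 : ℝ) < 1 + |y| := by positivity
  calc C₁ j * (1 + |y|) ^ (lam j * (1 - σ) + (mu j).re - 1 / 2) * Real.exp (-(π * |y| / 2)) *
        (C₂ j * (1 + |y|) ^ (1 / 2 - (lam j * σ + (mu j).re)) * Real.exp (π * |y| / 2))
      = C₁ j * C₂ j * (1 + |y|) ^ p j := by
        rw [show p j = (lam j * (1 - σ) + (mu j).re - 1 / 2) +
          (1 / 2 - (lam j * σ + (mu j).re)) by simp only [p]; ring, Real.rpow_add hy, Real.exp_neg]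
        field_simp
    _ ≤ C₁ j * C₂ j * ((1 + |lam j| + |(mu j).im|) * (1 + |t|)) ^ p j :=
        mul_le_mul_of_nonneg_left (Real.rpow_le_rpow hy.le (one_add_abs_le _ _ _) (hp j))
          (mul_nonneg (hC₁0 j) (hC₂0 j))
    _ = _ := by
        rw [Real.mul_rpow (hD j) (by positivity)]
        ring

/-- With `Γ s` it is bounded by `exp (-π |t| / 2)`. -/
theorem exists_norm_kernel_le (hlam : ∀ j, 0 < lam j) (hmu : ∀ j, 0 ≤ (mu j).re) (hQ : 0 < Q)
    (hd : degree lam = 1) {σ : ℝ} (hσ : σ < 0) (hσ1 : -1 < σ) : ∃ C : ℝ, 0 ≤ C ∧ ∀ t : ℝ,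
      ‖reflRatio lam mu Q (pt σ t) * Complex.Gamma (pt σ t)‖ ≤ C * Real.exp (-(π * |t| / 2)) := by
  obtain ⟨C, hC0, hC⟩ := exists_norm_reflRatio_le (mu := mu) hlam hmu hQ hd hσ
  obtain ⟨C', hC'0, hC'⟩ := exists_norm_Gamma_le (A := σ) fun n e => by
    rcases n with _ | n
    · simp at e; linarith
    · push_cast at e; linarith [Nat.cast_nonneg (α := ℝ) n]
  refine ⟨C * C', mul_nonneg hC0 hC'0, fun t => ?_⟩
  rw [norm_mul]
  refine (mul_le_mul (hC t) (hC' t) (norm_nonneg _) ((norm_nonneg _).trans (hC t))).trans_eq ?_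
  have ht : (0 : ℝ) < 1 + |t| := by positivity
  rw [show C * (1 + |t|) ^ (1 / 2 - σ) * (C' * (1 + |t|) ^ (σ - 1 / 2) *
      Real.exp (-(π * |t| / 2))) = C * C' * ((1 + |t|) ^ (1 / 2 - σ) * (1 + |t|) ^ (σ - 1 / 2)) *
      Real.exp (-(π * |t| / 2)) by ring, ← Real.rpow_add ht]
  simp

/-- The exponent of one factor, up to `o 1`. -/
def factorExp (l : ℝ) (μ : ℂ) (σ t : ℝ) : ℂ :=
  ((l * (1 - 2 * σ) * (Real.log t + Real.log l) : ℝ) : ℂ) +
    ((-(l + 2 * μ.re - 1) * (π / 2) - 2 * (l * t * Real.log t + l * (Real.log l - 1) * t +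
      μ.im * (Real.log t + Real.log l)) : ℝ) : ℂ) * I

theorem tendsto_factor {l : ℝ} (hl : 0 < l) (μ : ℂ) (σ : ℝ) :
    Tendsto (fun t : ℝ => conj (Complex.Gamma (l * (1 - conj (pt σ t)) + μ)) *
      (Complex.Gamma (l * pt σ t + μ))⁻¹ * cexp (-factorExp l μ σ t)) atTop (𝓝 1) := by
  set b := μ.im
  set A := l * σ + μ.re with hA
  set B := l * (1 - σ) + μ.re with hB
  have hy : Tendsto (fun t : ℝ => l * t + b) atTop atTop :=
    tendsto_atTop_add_const_right _ _ (tendsto_id.const_mul_atTop hl)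
  have hs : (√(2 * π) : ℝ) ≠ 0 := (Real.sqrt_pos.2 (by positivity)).ne'
  have h1 := ((Complex.continuous_conj.tendsto _).comp ((tendsto_stirling B).comp hy)).mul
    (((tendsto_stirling A).comp hy).inv₀ (ofReal_ne_zero.2 hs))
  rw [conj_ofReal, mul_inv_cancel₀ (ofReal_ne_zero.2 hs)] at h1
  have hlogy : Tendsto (fun t : ℝ => Real.log (l * t + b) - (Real.log t + Real.log l)) atTop
      (𝓝 0) := by
    have h2 : Tendsto (fun t : ℝ => Real.log (1 + b / l * t⁻¹)) atTop (𝓝 0) := by
      have h3 := ((tendsto_inv_atTop_zero (𝕜 := ℝ)).const_mul (b / l)).const_add 1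
      rw [mul_zero, add_zero] at h3
      simpa [Function.comp_def] using (Real.continuousAt_log one_ne_zero).tendsto.comp h3
    refine h2.congr' ?_
    filter_upwards [eventually_gt_atTop 0, hy.eventually_gt_atTop 0] with t ht ht'
    rw [show 1 + b / l * t⁻¹ = (l * t + b) / (t * l) by field_simp,
      Real.log_div ht'.ne' (by positivity), Real.log_mul ht.ne' hl.ne']
  have hent : Tendsto (fun t : ℝ => (l * t + b) * Real.log (l * t + b) - (l * t + b) -
      (l * t * Real.log t + l * (Real.log l - 1) * t + b * (Real.log t + Real.log l))) atTop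
      (𝓝 0) := by
    have h4 := (Real.tendsto_mul_log_one_add_div_atTop b).comp
      (tendsto_id.const_mul_atTop hl : Tendsto (fun t : ℝ => l * t) atTop atTop)
    have h5 := (h4.add (hlogy.const_mul b)).sub_const b
    rw [mul_zero, add_zero, sub_self] at h5
    refine h5.congr' ?_
    filter_upwards [eventually_gt_atTop 0, hy.eventually_gt_atTop 0] with t ht ht'
    simp only [Function.comp_apply]
    rw [show 1 + b / (l * t) = (l * t + b) / (t * l) by field_simp,
      Real.log_div ht'.ne' (by positivity), Real.log_mul ht.ne' hl.ne']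
    ring
  have hexp : Tendsto (fun t : ℝ =>
      cexp (conj (stExp B (l * t + b)) - stExp A (l * t + b) - factorExp l μ σ t)) atTop (𝓝 1) := by
    have h6 : Tendsto (fun t : ℝ => (((l * (1 - 2 * σ)) *
        (Real.log (l * t + b) - (Real.log t + Real.log l)) : ℝ) : ℂ) -
        2 * (((l * t + b) * Real.log (l * t + b) - (l * t + b) -
      (l * t * Real.log t + l * (Real.log l - 1) * t + b * (Real.log t + Real.log l)) : ℝ) : ℂ) *
          I) atTop (𝓝 0) := by
      simpa using (((Complex.continuous_ofReal.tendsto _).comp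
        (hlogy.const_mul (l * (1 - 2 * σ))))).sub
        ((((Complex.continuous_ofReal.tendsto _).comp hent).const_mul 2).mul_const I)
    have h7 := h6.cexp
    rw [Complex.exp_zero] at h7
    refine h7.congr' ?_
    filter_upwards [hy.eventually_gt_atTop 0] with t ht'
    congr 1
    simp only [stExp, factorExp, log_mul_I ht', map_add, map_sub, map_mul, conj_ofReal, conj_I]
    simp only [hA, hB, b]
    push_cast
    ring
  have h := h1.mul hexp
  rw [one_mul] at h
  refine h.congr fun t => ?_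
  simp only [Function.comp_apply, arg_left, arg_right, map_mul,
    mul_inv, Complex.exp_neg, inv_inv, Complex.exp_sub]
  simp only [hA, hB, b]
  have e1 := Complex.exp_ne_zero (conj (stExp (l * (1 - σ) + μ.re) (l * t + μ.im)))
  have e2 := Complex.exp_ne_zero (stExp (l * σ + μ.re) (l * t + μ.im))
  simp only [map_inv₀, ← Complex.exp_conj]
  field_simp

/-- **The quotient on the upper half of a line.** -/
theorem tendsto_kernel (hlam : ∀ j, 0 < lam j) (hQ : 0 < Q) (hd : degree lam = 1) (σ : ℝ) :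
    ∃ K : ℂ, K ≠ 0 ∧ Tendsto (fun t : ℝ => reflRatio lam mu Q (pt σ t) * Complex.Gamma (pt σ t) *
      cexp ((π * t / 2 : ℝ) : ℂ) * cexp (((rateK lam Q * t - shiftT mu * Real.log t : ℝ) : ℂ) * I))
        atTop (𝓝 K) := by
  set c₀ : ℂ := (((1 - 2 * σ) * Real.log Q + ∑ j, lam j * (1 - 2 * σ) * Real.log (lam j) : ℝ) : ℂ)
    + (((σ - 1 / 2) * (π / 2) +
      ∑ j, (-(lam j + 2 * (mu j).re - 1) * (π / 2) - 2 * (mu j).im * Real.log (lam j)) : ℝ) : ℂ) *
      I with hc₀
  refine ⟨(√(2 * π) : ℝ) * cexp c₀, mul_ne_zero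
    (ofReal_ne_zero.2 (Real.sqrt_pos.2 (by positivity)).ne') (Complex.exp_ne_zero _), ?_⟩
  have h := (tendsto_finsetProd (Finset.univ : Finset (Fin r))
    (fun j _ => tendsto_factor (hlam j) (mu j) σ)).mul (tendsto_stirling σ)
  rw [Finset.prod_const_one, one_mul] at h
  refine (h.mul_const (cexp c₀)).congr' ?_
  filter_upwards [eventually_gt_atTop 0] with t ht
  have hQ' : (Q : ℂ) ≠ 0 := ofReal_ne_zero.2 hQ.ne'
  rw [reflRatio, Finset.prod_mul_distrib, ← Complex.exp_sum, cpow_def_of_ne_zero hQ',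
    ← ofReal_log hQ.le, pt]
  have key : c₀ + (∑ j, -factorExp (lam j) (mu j) σ t) + -stExp σ t =
      (Real.log Q : ℂ) * (1 - 2 * ((σ : ℂ) + t * I)) + ((π * t / 2 : ℝ) : ℂ) +
        ((rateK lam Q * t - shiftT mu * Real.log t : ℝ) : ℂ) * I := by
    have hl : ∑ j, lam j = 1 / 2 := by rw [degree] at hd; linarith
    rw [hc₀, stExp, log_mul_I ht]
    apply Complex.ext
    · simp only [add_re, neg_re, Complex.re_sum, mul_re, sub_re, ofReal_re, ofReal_im, I_re, I_im,
        factorExp, one_re, re_ofNat, im_ofNat, mul_im, sub_im, add_im, one_im, mul_zero, mul_one,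
        zero_mul, sub_zero, add_zero, zero_sub, zero_add, Finset.sum_neg_distrib]
      rw [Finset.sum_congr rfl (fun j _ =>
        show lam j * (1 - 2 * σ) * (Real.log t + Real.log (lam j))
        = lam j * ((1 - 2 * σ) * Real.log t) + lam j * (1 - 2 * σ) * Real.log (lam j) by ring),
        Finset.sum_add_distrib, ← Finset.sum_mul, hl]
      ring
    · simp only [add_im, neg_im, Complex.im_sum, mul_im, sub_im, ofReal_re, ofReal_im, I_re, I_im,
        factorExp, one_im, re_ofNat, im_ofNat, mul_re, sub_re, add_re, one_re, mul_zero, mul_one,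
        zero_mul, sub_zero, add_zero, zero_sub, zero_add, Finset.sum_neg_distrib]
      rw [Finset.sum_congr rfl (fun j _ => show -(lam j + 2 * (mu j).re - 1) * (π / 2) -
        2 * (lam j * t * Real.log t + lam j * (Real.log (lam j) - 1) * t +
          (mu j).im * (Real.log t + Real.log (lam j))) =
        (-(lam j + 2 * (mu j).re - 1) * (π / 2) - 2 * (mu j).im * Real.log (lam j)) -
          (lam j * (2 * t * Real.log t - 2 * t) + lam j * Real.log (lam j) * (2 * t) +
            (mu j).im * (2 * Real.log t)) by ring)]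
      simp only [Finset.sum_sub_distrib, Finset.sum_add_distrib, ← Finset.sum_mul, hl, rateK,
        shiftT]
      ring
  simp only [Finset.prod_mul_distrib]
  generalize (∏ j, conj (Complex.Gamma ((lam j : ℂ) * (1 - conj ((σ : ℂ) + t * I)) + mu j))) = P
  generalize (∏ j, (Complex.Gamma ((lam j : ℂ) * ((σ : ℂ) + t * I) + mu j))⁻¹) = P'
  calc _ = P * P' * Complex.Gamma ((σ : ℂ) + t * I) *
        (cexp c₀ * cexp (∑ j, -factorExp (lam j) (mu j) σ t) * cexp (-stExp σ t)) := by ring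
    _ = _ := by
      rw [← Complex.exp_add, ← Complex.exp_add, key, Complex.exp_add, Complex.exp_add]
      ring

end FA.DegreeOne

end
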