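import Fermat.Agent.DegreeOne.Ratio
import Fermat.Agent.DegreeOne.Mellin
import Fermat.Agent.DegreeGap.Entire

/-!
# The exponential series from the functional equation

`2 π ∑ a n exp (-n z)` is the integral over `re s = -1/4` of the reflected series times `Γ`, plus
two integrals whose kernels are `o (exp (-π t / 2))`, coming from the principal parts
at `1` and `0`.
-/

set_option autoImplicit false

noncomputable section

open Complex MeasureTheory Filter Set Topology
open scoped Real ComplexConjugate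
open FA.DegreeGap (pt pt_re pt_im continuous_pt degree HasFunctionalEquation expSeries gammaFactor)

namespace FA.DegreeOne

variable {a : ℕ → ℂ} {m : ℕ} {E : ℂ → ℂ} {r : ℕ} {lam : Fin r → ℝ} {mu : Fin r → ℂ} {Q : ℝ}
  {omega : ℂ}

/-- No larger than `exp (-π |t| / 2)`. -/
def IsFlat (K : ℝ → ℂ) : Prop :=
  Continuous K ∧ ∃ C : ℝ, 0 ≤ C ∧ ∀ t, ‖K t‖ ≤ C * Real.exp (-(π * |t| / 2))

/-- `o (exp (-π t / 2))` as well. -/
def IsNegligible (K : ℝ → ℂ) : Prop :=
  IsFlat K ∧ Tendsto (fun t : ℝ => K t * cexp ((π * t / 2 : ℝ) : ℂ)) atTop (𝓝 0)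

theorem IsFlat.isKernel {K : ℝ → ℂ} (hK : IsFlat K) : IsKernel K := by
  obtain ⟨hc, C, hC0, hC⟩ := hK
  exact ⟨hc, 0, C, hC0, fun t => by rw [pow_zero, mul_one]; exact hC t⟩

theorem conj_inv_eq (hQ : 0 < Q) (s : ℂ) :
    conj (gammaFactor lam mu Q (1 - conj s)) * (gammaFactor lam mu Q s)⁻¹ =
      reflRatio lam mu Q s := by
  have hQ' : (Q : ℂ) ≠ 0 := ofReal_ne_zero.2 hQ.ne'
  have e : conj ((Q : ℂ) ^ (1 - conj s)) = (Q : ℂ) ^ (1 - s) := by
    rw [cpow_def_of_ne_zero hQ', cpow_def_of_ne_zero hQ', ← Complex.exp_conj, ← ofReal_log hQ.le]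
    simp
  rw [gammaFactor, gammaFactor, reflRatio, map_mul, map_prod, e, mul_inv, ← Finset.prod_inv_distrib,
    Finset.prod_mul_distrib, ← cpow_neg, show (1 : ℂ) - 2 * s = (1 - s) + -s by ring,
    cpow_add _ _ hQ']
  ring

/-- The reflected series times `Γ`. -/
def reflKernel (a : ℕ → ℂ) (omega : ℂ) (lam : Fin r → ℝ) (mu : Fin r → ℂ) (Q : ℝ) (t : ℝ) : ℂ :=
  omega * reflRatio lam mu Q (pt (-(1 / 4)) t) * conj (LSeries a (pt (5 / 4) t)) *
    Complex.Gamma (pt (-(1 / 4)) t)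

theorem isFlat_reflKernel (h : HasFunctionalEquation a m E lam mu Q omega)
    (hd : degree lam = 1) : IsFlat (reflKernel a omega lam mu Q) := by
  obtain ⟨C, hC0, hC⟩ := exists_norm_kernel_le (mu := mu) (σ := -(1 / 4)) h.lam_pos h.mu_re h.Q_pos
    hd (by norm_num) (by norm_num)
  have hs := h.summable ((5 / 4 : ℝ) : ℂ) (by norm_num)
  set S := ∑' n, ‖LSeries.term a ((5 / 4 : ℝ) : ℂ) n‖
  have hS : 0 ≤ S := tsum_nonneg fun _ => norm_nonneg _
  refine ⟨((continuous_const.mul (continuous_reflRatio_line h.lam_pos h.mu_re h.Q_pos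
    (by norm_num))).mul (Complex.continuous_conj.comp (continuous_series_line hs))).mul
    (continuous_Gamma_line fun n e => ?_), C * S, mul_nonneg hC0 hS, fun t => ?_⟩
  · rcases n with _ | n
    · norm_num at e
    · push_cast at e; linarith [Nat.cast_nonneg (α := ℝ) n]
  rw [reflKernel, norm_mul, norm_mul, norm_mul, h.norm_omega, one_mul, Complex.norm_conj]
  calc ‖reflRatio lam mu Q (pt (-(1 / 4)) t)‖ * ‖LSeries a (pt (5 / 4) t)‖ *
        ‖Complex.Gamma (pt (-(1 / 4)) t)‖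
      = ‖reflRatio lam mu Q (pt (-(1 / 4)) t) * Complex.Gamma (pt (-(1 / 4)) t)‖ *
          ‖LSeries a (pt (5 / 4) t)‖ := by rw [norm_mul]; ring
    _ ≤ C * Real.exp (-(π * |t| / 2)) * S :=
        mul_le_mul (hC t) (norm_series_le hs t) (norm_nonneg _) (by positivity)
    _ = _ := by ring

theorem exists_taylor_split : ∀ (m : ℕ) {E : ℂ → ℂ}, Differentiable ℂ E →
    ∃ (c : ℕ → ℂ) (E₁ : ℂ → ℂ), Differentiable ℂ E₁ ∧
      ∀ s, E s = (∑ i ∈ Finset.range m, c i * (s - 1) ^ i) + (s - 1) ^ m * E₁ s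
  | 0, E, hE => ⟨0, E, hE, fun s => by simp⟩
  | m + 1, E, hE => by
    obtain ⟨c, E₁, hE₁, h⟩ := exists_taylor_split m (E := dslope E 1)
      (differentiableOn_univ.1 ((Complex.differentiableOn_dslope Filter.univ_mem).2
        hE.differentiableOn))
    refine ⟨fun i => if i = 0 then E 1 else c (i - 1), E₁, hE₁, fun s => ?_⟩
    have h1 := sub_smul_dslope E 1 s
    rw [smul_eq_mul, h s] at h1
    rw [Finset.sum_range_succ']
    simp only [Nat.succ_ne_zero, if_false, if_true, Nat.add_sub_cancel, pow_zero, mul_one]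
    rw [Finset.sum_congr rfl (fun i _ => show c i * (s - 1) ^ (i + 1) =
      (s - 1) * (c i * (s - 1) ^ i) by ring), ← Finset.mul_sum]
    linear_combination -h1

theorem one_add_abs_le_norm {s : ℂ} (h : 1 / 4 ≤ |s.re|) : 1 + |s.im| ≤ 5 * ‖s‖ := by
  linarith [Complex.abs_re_le_norm s, Complex.abs_im_le_norm s]

theorem exists_pp_bound (m : ℕ) (c : ℕ → ℂ) (ρ : ℂ) : ∃ C : ℝ, 0 ≤ C ∧ ∀ s : ℂ,
    s.re = -(1 / 4) ∨ s.re = 5 / 4 →
    ‖(∑ i ∈ Finset.range m, c i * (s - 1) ^ i) / (s - 1) ^ m + 2 * ρ / (s + 2)‖ ≤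
      C / (1 + |s.im|) := by
  refine ⟨(∑ i ∈ Finset.range m, ‖c i‖ * 5 ^ m) + 10 * ‖ρ‖, by positivity, fun s hs => ?_⟩
  have hY : (0 : ℝ) < 1 + |s.im| := by positivity
  have h1 : 1 + |s.im| ≤ 5 * ‖s - 1‖ := by
    have := one_add_abs_le_norm (s := s - 1) (by
      rcases hs with hs | hs <;> rw [sub_re, one_re, hs] <;> norm_num)
    simpa using this
  have h2 : 1 + |s.im| ≤ 5 * ‖s + 2‖ := by
    have := one_add_abs_le_norm (s := s + 2) (by
      rcases hs with hs | hs <;> simp only [add_re, re_ofNat, hs] <;> norm_num)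
    simpa using this
  have hne : s - 1 ≠ 0 := fun e => by rw [e, norm_zero] at h1; linarith
  rw [add_div, Finset.sum_div _ _ (1 + |s.im|), Finset.sum_div]
  refine (norm_add_le _ _).trans (add_le_add ((norm_sum_le _ _).trans
    (Finset.sum_le_sum fun i hi => ?_)) ?_)
  · obtain ⟨k, rfl⟩ : ∃ k, m = i + (k + 1) :=
      ⟨m - i - 1, by rw [Finset.mem_range] at hi; omega⟩
    rw [pow_add, mul_comm (c i), mul_div_mul_left _ _ (pow_ne_zero _ hne), norm_div, norm_pow]
    calc ‖c i‖ / ‖s - 1‖ ^ (k + 1) ≤ ‖c i‖ / ((1 + |s.im|) / 5) ^ (k + 1) := by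
          refine div_le_div_of_nonneg_left (norm_nonneg _) (by positivity) ?_
          exact pow_le_pow_left₀ (by positivity) (by linarith) _
      _ = ‖c i‖ * 5 ^ (k + 1) / (1 + |s.im|) ^ (k + 1) := by
          rw [div_pow]
          field_simp
      _ ≤ ‖c i‖ * 5 ^ (i + (k + 1)) / (1 + |s.im|) := by
          refine div_le_div₀ (by positivity) (mul_le_mul_of_nonneg_left
            (pow_le_pow_right₀ (by norm_num) (Nat.le_add_left _ i)) (norm_nonneg _)) hY
            (le_self_pow₀ (by linarith [abs_nonneg s.im]) (Nat.succ_ne_zero k))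
  · rw [norm_div, norm_mul, Complex.norm_ofNat,
      div_le_div_iff₀ (by linarith) hY]
    nlinarith [mul_le_mul_of_nonneg_left h2 (norm_nonneg ρ)]

theorem isNegligible_pp {A : ℝ} (hA : A = -(1 / 4) ∨ A = 5 / 4) {g : ℂ → ℂ}
    (hg : Continuous fun t : ℝ => g (pt A t)) {C : ℝ} (hC0 : 0 ≤ C)
    (hC : ∀ s : ℂ, s.re = -(1 / 4) ∨ s.re = 5 / 4 → ‖g s‖ ≤ C / (1 + |s.im|)) :
    IsNegligible fun t => g (pt A t) * Complex.Gamma (pt A t) := by
  have hne : ∀ n : ℕ, A ≠ -(n : ℝ) := fun n e => by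
    rcases n with _ | n
    · rcases hA with h | h <;> rw [h] at e <;> norm_num at e
    · push_cast at e
      rcases hA with h | h <;> linarith [Nat.cast_nonneg (α := ℝ) n]
  obtain ⟨C', hC'0, hC'⟩ := exists_norm_Gamma_le hne
  have hle : ∀ t : ℝ, ‖g (pt A t) * Complex.Gamma (pt A t)‖ ≤
      C * C' * (1 + |t|) ^ (-(1 / 4) : ℝ) * Real.exp (-(π * |t| / 2)) := fun t => by
    have ht : (1 : ℝ) ≤ 1 + |t| := by linarith [abs_nonneg t]
    have h1 := hC (pt A t) (by simpa [pt_re] using hA)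
    rw [pt_im] at h1
    rw [norm_mul]
    refine (mul_le_mul h1 (hC' t) (norm_nonneg _) (by positivity)).trans ?_
    rw [show C / (1 + |t|) * (C' * (1 + |t|) ^ (A - 1 / 2) * Real.exp (-(π * |t| / 2))) =
      C * C' * ((1 + |t|) ^ (A - 1 / 2) / (1 + |t|)) * Real.exp (-(π * |t| / 2)) by ring,
      ← Real.rpow_sub_one (by positivity)]
    gcongr
    rcases hA with h | h <;> linarith
  refine ⟨⟨hg.mul (continuous_Gamma_line hne), C * C', mul_nonneg hC0 hC'0, fun t => (hle t).trans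
    (mul_le_mul_of_nonneg_right (mul_le_of_le_one_right (mul_nonneg hC0 hC'0)
      (Real.rpow_le_one_of_one_le_of_nonpos (by linarith [abs_nonneg t]) (by norm_num)))
      (Real.exp_nonneg _))⟩, ?_⟩
  refine squeeze_zero_norm' (a := fun t : ℝ => C * C' * (1 + t) ^ (-(1 / 4) : ℝ)) ?_ ?_
  · filter_upwards [eventually_ge_atTop 0] with t ht
    rw [norm_mul, Complex.norm_exp, ofReal_re]
    refine (mul_le_mul_of_nonneg_right (hle t) (Real.exp_nonneg _)).trans_eq ?_
    rw [abs_of_nonneg ht, mul_assoc, ← Real.exp_add, neg_add_cancel, Real.exp_zero, mul_one]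
  · simpa using ((tendsto_rpow_neg_atTop (show (0 : ℝ) < 1 / 4 by norm_num)).comp
      (tendsto_atTop_add_const_left _ 1 tendsto_id)).const_mul (C * C')

/-- A function holomorphic in the strip and small on both edges has equal integrals on them. -/
theorem lineMellin_eq_of_strip {Φ : ℂ → ℂ} (hΦ : DifferentiableOn ℂ Φ {s | -1 < s.re})
    {K : ℝ} (hgrow : ∀ c : ℝ, 0 < c → ∃ B : ℝ, ∀ s : ℂ, -(1 / 4) ≤ s.re → s.re ≤ 5 / 4 →
      1 ≤ |s.im| → ‖Φ s‖ ≤ K * Real.exp (B * Real.exp (c * |s.im|)))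
    (hl : IsKernel fun t => Φ (pt (-(1 / 4)) t)) (hr : IsKernel fun t => Φ (pt (5 / 4) t))
    {x : ℝ} (hx : 0 < x) :
    lineMellin (5 / 4) (fun t => Φ (pt (5 / 4) t)) x =
      lineMellin (-(1 / 4)) (fun t => Φ (pt (-(1 / 4)) t)) x := by
  obtain ⟨-, N₁, C₁, hC₁0, hC₁⟩ := id hl
  obtain ⟨-, N₂, C₂, hC₂0, hC₂⟩ := id hr
  obtain ⟨B₁, hB₁0, hB₁⟩ := FA.DegreeGap.exists_poly_mul_exp_le N₁ (ε := 1 / 2) (by norm_num)
  obtain ⟨B₂, hB₂0, hB₂⟩ := FA.DegreeGap.exists_poly_mul_exp_le N₂ (ε := 1 / 2) (by norm_num)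
  set M := max (C₁ * B₁) (C₂ * B₂)
  have hM0 : 0 ≤ M := le_max_of_le_left (mul_nonneg hC₁0 hB₁0)
  have edge : ∀ e : ℝ, |e| = 1 → ∀ z : ℂ, z.re = -(1 / 4) ∨ z.re = 5 / 4 →
      ‖Φ z * cexp ((e : ℂ) * I * z)‖ ≤ M := by
    intro e he z hz
    have h3 : ‖cexp ((e : ℂ) * I * z)‖ ≤ Real.exp |z.im| := by
      rw [Complex.norm_exp, mul_assoc]
      refine Real.exp_le_exp.2 ?_
      simp only [mul_re, I_re, ofReal_re, ofReal_im, I_im, mul_im, zero_mul, one_mul, sub_zero,
        zero_sub, zero_add]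
      rw [← one_mul |z.im|, ← he, ← abs_neg z.im, ← abs_mul]
      exact le_abs_self _
    have hexp : ∀ (N : ℕ) (B : ℝ), 0 ≤ B → (∀ y : ℝ, (1 + |y|) ^ N * Real.exp (-(1 / 2 * |y|)) ≤
        B * (1 + y ^ 2)⁻¹) →
        (1 + |z.im|) ^ N * Real.exp (-(π * |z.im| / 2)) * Real.exp |z.im| ≤ B := by
      intro N B hB0 hB
      rw [mul_assoc, ← Real.exp_add]
      refine le_trans ?_ ((hB z.im).trans (mul_le_of_le_one_right hB0
        (inv_le_one_of_one_le₀ (by nlinarith))))
      gcongr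
      nlinarith [Real.pi_gt_three, abs_nonneg z.im]
    rw [norm_mul]
    rcases hz with hz | hz
    · have ez : z = pt (-(1 / 4)) z.im := by rw [← hz]; exact (Complex.re_add_im z).symm
      have h1 := hC₁ z.im
      simp only [← ez] at h1
      calc ‖Φ z‖ * ‖cexp ((e : ℂ) * I * z)‖
          ≤ C₁ * (1 + |z.im|) ^ N₁ * Real.exp (-(π * |z.im| / 2)) * Real.exp |z.im| :=
            mul_le_mul h1 h3 (norm_nonneg _) (by positivity)
        _ ≤ C₁ * B₁ := by
            rw [mul_assoc C₁, mul_assoc C₁]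
            exact mul_le_mul_of_nonneg_left (hexp N₁ B₁ hB₁0 hB₁) hC₁0
        _ ≤ M := le_max_left _ _
    · have ez : z = pt (5 / 4) z.im := by rw [← hz]; exact (Complex.re_add_im z).symm
      have h1 := hC₂ z.im
      simp only [← ez] at h1
      calc ‖Φ z‖ * ‖cexp ((e : ℂ) * I * z)‖
          ≤ C₂ * (1 + |z.im|) ^ N₂ * Real.exp (-(π * |z.im| / 2)) * Real.exp |z.im| :=
            mul_le_mul h1 h3 (norm_nonneg _) (by positivity)
        _ ≤ C₂ * B₂ := by
            rw [mul_assoc C₂, mul_assoc C₂]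
            exact mul_le_mul_of_nonneg_left (hexp N₂ B₂ hB₂0 hB₂) hC₂0
        _ ≤ M := le_max_right _ _
  have hsub : ∀ z : ℂ, z.re ∈ Icc (-(1 / 4) : ℝ) (5 / 4) → z ∈ {s : ℂ | -1 < s.re} := fun z hz => by
    show -1 < z.re
    linarith [hz.1]
  have hn : ∀ (e : ℝ) (s : ℂ), ‖cexp ((e : ℂ) * I * s)‖ = Real.exp (-(e * s.im)) := fun e s => by
    rw [Complex.norm_exp]
    congr 1
    simp
  have hint : ∀ s : ℂ, -(1 / 4) ≤ s.re → s.re ≤ 5 / 4 → ‖Φ s‖ ≤ M * Real.exp (-|s.im|) := by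
    intro s hs1 hs2
    have hkey : ∀ e : ℝ, |e| = 1 → ‖Φ s * cexp ((e : ℂ) * I * s)‖ ≤ M := by
      intro e he
      obtain ⟨B, hB⟩ := hgrow 1 one_pos
      refine PhragmenLindelof.vertical_strip (a := -(1 / 4)) (b := 5 / 4)
        (f := fun z => Φ z * cexp ((e : ℂ) * I * z)) (DifferentiableOn.diffContOnCl ?_)
        ⟨1, by rw [lt_div_iff₀] <;> linarith [Real.pi_gt_three], B + 1,
          Asymptotics.IsBigO.of_bound |K| ?_⟩
        (fun z hz => edge e he z (Or.inl hz)) (fun z hz => edge e he z (Or.inr hz)) hs1 hs2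
      · refine (hΦ.mul ((differentiable_id.const_mul _).cexp).differentiableOn).mono fun z hz => ?_
        refine hsub z ?_
        have := (Complex.continuous_re.closure_preimage_subset _) hz
        rwa [closure_Ioo (by norm_num)] at this
      · rw [eventually_inf_principal]
        filter_upwards [preimage_mem_comap (Ici_mem_atTop (1 : ℝ))] with z hz hz'
        rw [mem_preimage, mem_Ioo] at hz'
        rw [mem_preimage, Function.comp_apply, mem_Ici] at hz
        rw [norm_mul, hn, Real.norm_of_nonneg (Real.exp_pos _).le, add_mul, Real.exp_add]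
        rw [← mul_assoc]
        refine mul_le_mul ((hB z hz'.1.le hz'.2.le hz).trans (mul_le_mul_of_nonneg_right
          (le_abs_self K) (Real.exp_nonneg _))) (Real.exp_le_exp.2 ?_) (Real.exp_nonneg _)
          (by positivity)
        simp only [one_mul]
        refine le_trans ?_ ((le_add_of_nonneg_right zero_le_one).trans
          (Real.add_one_le_exp |z.im|))
        rw [← one_mul |z.im|, ← he, ← abs_mul, ← abs_neg]
        exact le_abs_self _
    rw [Real.exp_neg, ← div_eq_mul_inv, le_div_iff₀ (Real.exp_pos _)]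
    rcases le_total 0 s.im with hs | hs
    · have h1 := hkey (-1) (by norm_num)
      rwa [norm_mul, hn, neg_one_mul, neg_neg, ← abs_of_nonneg hs] at h1
    · have h1 := hkey 1 (by norm_num)
      rwa [norm_mul, hn, one_mul, ← abs_of_nonpos hs] at h1
  set Ψ : ℂ → ℂ := fun s => Φ s * (x : ℂ) ^ (-s)
  have hΨ : DifferentiableOn ℂ Ψ {s | -1 < s.re} :=
    hΦ.mul
      ((differentiable_id.neg).const_cpow (Or.inl (ofReal_ne_zero.2 hx.ne'))).differentiableOn
  set X := x ^ (1 / 4 : ℝ) + x ^ (-(5 / 4) : ℝ)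
  have hΨle : ∀ s : ℂ, -(1 / 4) ≤ s.re → s.re ≤ 5 / 4 → ‖Ψ s‖ ≤ M * X * Real.exp (-|s.im|) := by
    intro s hs1 hs2
    have h1 : ‖(x : ℂ) ^ (-s)‖ ≤ X := by
      rw [norm_cpow_eq_rpow_re_of_pos hx, neg_re]
      have := Real.rpow_nonneg hx.le (1 / 4)
      have := Real.rpow_nonneg hx.le (-(5 / 4))
      rcases le_total x 1 with h | h
      · linarith [Real.rpow_le_rpow_of_exponent_ge hx h (show -(5 / 4) ≤ -s.re by linarith)]
      · linarith [Real.rpow_le_rpow_of_exponent_le h (show -s.re ≤ 1 / 4 by linarith)]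
    refine (norm_mul_le _ _).trans ((mul_le_mul (hint s hs1 hs2) h1 (norm_nonneg _)
      (by positivity)).trans_eq ?_)
    ring
  have hrect : ∀ T : ℝ, (∫ y in (-T)..T, Ψ (pt (5 / 4) y)) -
      (∫ y in (-T)..T, Ψ (pt (-(1 / 4)) y)) =
        I * ((∫ u in (-(1 / 4) : ℝ)..(5 / 4), Ψ (pt u (-T))) -
          ∫ u in (-(1 / 4) : ℝ)..(5 / 4), Ψ (pt u T)) := by
    intro T
    have hc := Complex.integral_boundary_rect_eq_zero_of_differentiableOn Ψ (pt (-(1 / 4)) (-T))
      (pt (5 / 4) T) (hΨ.mono fun z hz => ?_)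
    · simp only [pt_re, pt_im, smul_eq_mul] at hc
      simp only [pt] at hc ⊢
      linear_combination (-I) * hc + ((∫ y in (-T)..T, Ψ (((5 / 4 : ℝ) : ℂ) + y * I)) -
        ∫ y in (-T)..T, Ψ (((-(1 / 4) : ℝ) : ℂ) + y * I)) * I_sq
    · simp only [pt_re, pt_im] at hz
      have h1 := (Complex.mem_reProdIm.1 hz).1
      rw [uIcc_of_le (by norm_num)] at h1
      exact hsub z h1
  have hhor : ∀ g : ℝ → ℝ, Tendsto (fun T => |g T|) atTop atTop →
      Tendsto (fun T => ∫ u in (-(1 / 4) : ℝ)..(5 / 4), Ψ (pt u (g T))) atTop (𝓝 0) := by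
    intro g hg
    have hlim : Tendsto (fun T => M * X * Real.exp (-|g T|) * |5 / 4 - (-(1 / 4) : ℝ)|) atTop
        (𝓝 0) := by
      simpa using ((Real.tendsto_exp_neg_atTop_nhds_zero.comp hg).const_mul (M * X)).mul_const
        |5 / 4 - (-(1 / 4) : ℝ)|
    refine squeeze_zero_norm (fun T => ?_) hlim
    refine intervalIntegral.norm_integral_le_of_norm_le_const fun u hu => ?_
    rw [uIoc_of_le (by norm_num)] at hu
    have := hΨle (pt u (g T)) (by rw [pt_re]; exact hu.1.le) (by rw [pt_re]; exact hu.2)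
    rwa [pt_im] at this
  have hR := intervalIntegral_tendsto_integral (hr.integrable (5 / 4) (z := (x : ℂ))
    (by simpa using hx)) tendsto_neg_atTop_atBot tendsto_id
  have hL := intervalIntegral_tendsto_integral (hl.integrable (-(1 / 4)) (z := (x : ℂ))
    (by simpa using hx)) tendsto_neg_atTop_atBot tendsto_id
  have h0 : Tendsto (fun T : ℝ => I * ((∫ u in (-(1 / 4) : ℝ)..(5 / 4), Ψ (pt u (-T))) -
      ∫ u in (-(1 / 4) : ℝ)..(5 / 4), Ψ (pt u T))) atTop (𝓝 0) := by
    simpa using ((hhor (fun T => -T) (by simpa using tendsto_abs_atTop_atTop)).sub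
      (hhor id tendsto_abs_atTop_atTop)).const_mul I
  have e := tendsto_nhds_unique (hR.sub hL) (h0.congr fun T => (hrect T).symm)
  exact sub_eq_zero.1 e

/-- **The decomposition.** -/
theorem exists_decomposition (h : HasFunctionalEquation a m E lam mu Q omega)
    (hd : degree lam = 1) : ∃ P₁ P₂ : ℝ → ℂ, IsNegligible P₁ ∧ IsNegligible P₂ ∧
      ∀ z : ℂ, 0 < z.re → 2 * π * expSeries a 0 z =
        lineMellin (-(1 / 4)) (reflKernel a omega lam mu Q) z + lineMellin (5 / 4) P₁ z -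
          lineMellin (-(1 / 4)) P₂ z := by
  obtain ⟨c, E₁, hE₁, hsplit⟩ := exists_taylor_split m h.differentiable
  set ρ := E₁ 0
  set pp : ℂ → ℂ := fun s =>
    (∑ i ∈ Finset.range m, c i * (s - 1) ^ i) / (s - 1) ^ m + 2 * ρ / (s + 2)
  obtain ⟨Cp, hCp0, hCp⟩ := exists_pp_bound m c ρ
  set e : ℂ → ℂ := fun s => E₁ s - 2 * ρ / (s + 2)
  have hne2 : ∀ s : ℂ, -1 < s.re → s + 2 ≠ 0 := fun s hs e => by
    have := congrArg Complex.re e
    simp at this
    linarith
  have he : DifferentiableOn ℂ e {s | -1 < s.re} := hE₁.differentiableOn.sub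
    ((differentiableOn_const _).div (differentiable_id.add_const _).differentiableOn hne2)
  have he0 : e 0 = 0 := by simp [e, ρ]
  set Φ : ℂ → ℂ := fun s => dslope e 0 s * Complex.Gamma (s + 1)
  have hU : {s : ℂ | -1 < s.re} ∈ 𝓝 (0 : ℂ) :=
    (isOpen_lt continuous_const Complex.continuous_re).mem_nhds (by simp)
  have hΦ : DifferentiableOn ℂ Φ {s | -1 < s.re} := by
    refine ((Complex.differentiableOn_dslope hU).2 he).mul ?_
    simpa using FA.DegreeGap.differentiableOn_Gamma_shift 1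
  have hEq : ∀ s : ℂ, s ≠ 0 → s ≠ 1 → Φ s = (E s / (s - 1) ^ m - pp s) * Complex.Gamma s := by
    intro s hs hs1
    have h2 : E s / (s - 1) ^ m - pp s = e s := by
      simp only [pp, e, hsplit s, add_div,
        mul_div_cancel_left₀ _ (pow_ne_zero m (sub_ne_zero.2 hs1))]
      ring
    rw [h2]
    simp only [Φ, dslope_of_ne _ hs, slope_def_field, he0, sub_zero, Complex.Gamma_add_one s hs]
    field_simp
  have hpt : ∀ {A : ℝ}, A = -(1 / 4) ∨ A = 5 / 4 → ∀ t : ℝ, pt A t ≠ 0 ∧ pt A t ≠ 1 := by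
    intro A hA t
    constructor <;> intro e <;> have := congrArg Complex.re e <;> rw [pt_re] at this <;>
      rcases hA with h | h <;> rw [h] at this <;> norm_num at this
  have hppc : ∀ {A : ℝ}, A = -(1 / 4) ∨ A = 5 / 4 → Continuous fun t : ℝ => pp (pt A t) := by
    intro A hA
    refine (Continuous.div (continuous_finsetSum _ fun i _ => continuous_const.mul
      (((continuous_pt A).sub continuous_const).pow i))
      (((continuous_pt A).sub continuous_const).pow m) fun t => ?_).add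
      (continuous_const.div ((continuous_pt A).add continuous_const) fun t => hne2 _ ?_)
    · exact pow_ne_zero m (sub_ne_zero.2 (hpt hA t).2)
    · rw [pt_re]; rcases hA with h | h <;> rw [h] <;> norm_num
  have hN₁ := isNegligible_pp (Or.inr rfl) (hppc (Or.inr rfl)) hCp0 hCp
  have hN₂ := isNegligible_pp (Or.inl rfl) (hppc (Or.inl rfl)) hCp0 hCp
  set P₁ : ℝ → ℂ := fun t => pp (pt (5 / 4) t) * Complex.Gamma (pt (5 / 4) t)
  set P₂ : ℝ → ℂ := fun t => pp (pt (-(1 / 4)) t) * Complex.Gamma (pt (-(1 / 4)) t)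
  have hs := h.summable ((5 / 4 : ℝ) : ℂ) (by norm_num)
  set K₁ : ℝ → ℂ := fun t => LSeries a (pt (5 / 4) t) * Complex.Gamma (pt (5 / 4) t)
  set K₂ := reflKernel a omega lam mu Q
  have hK₁ : IsKernel K₁ := isKernel_series (by norm_num) hs
  have hK₂ : IsKernel K₂ := (isFlat_reflKernel h hd).isKernel
  have hr : ∀ t, Φ (pt (5 / 4) t) = K₁ t - P₁ t := fun t => by
    have hne := pow_ne_zero m (sub_ne_zero.2 (hpt (Or.inr rfl) t).2)
    rw [hEq _ (hpt (Or.inr rfl) t).1 (hpt (Or.inr rfl) t).2,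
      h.eq_series _ (by rw [pt_re]; norm_num), mul_div_cancel_left₀ _ hne, sub_mul]
  have hl : ∀ t, Φ (pt (-(1 / 4)) t) = K₂ t - P₂ t := fun t => by
    have hne := pow_ne_zero m (sub_ne_zero.2 (hpt (Or.inl rfl) t).2)
    have hcj : 1 - conj (pt (-(1 / 4)) t) = pt (5 / 4) t := by
      apply Complex.ext <;> simp [pt]
      norm_num
    rw [hEq _ (hpt (Or.inl rfl) t).1 (hpt (Or.inl rfl) t).2,
      h.functional_equation _ (by rw [pt_re]; norm_num), mul_div_cancel_left₀ _ hne, sub_mul]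
    congr 1
    simp only [K₂, reflKernel, map_mul, ← conj_inv_eq h.Q_pos, hcj]
    ring
  have hsub : ∀ {K P : ℝ → ℂ}, IsKernel K → IsKernel P → IsKernel fun t => K t - P t := by
    rintro K P ⟨hKc, N, C, hC0, hC⟩ ⟨hPc, N', C', hC'0, hC'⟩
    refine ⟨hKc.sub hPc, max N N', C + C', add_nonneg hC0 hC'0, fun t => ?_⟩
    have h1 : (1 : ℝ) ≤ 1 + |t| := by linarith [abs_nonneg t]
    refine (norm_sub_le _ _).trans ((add_le_add (hC t) (hC' t)).trans ?_)
    rw [add_mul, add_mul]
    gcongr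
    · exact le_max_left _ _
    · exact le_max_right _ _
  have hkr : IsKernel fun t => Φ (pt (5 / 4) t) := by
    simp only [hr]; exact hsub hK₁ hN₁.1.isKernel
  have hkl : IsKernel fun t => Φ (pt (-(1 / 4)) t) := by
    simp only [hl]; exact hsub hK₂ hN₂.1.isKernel
  obtain ⟨A, C, hE⟩ := h.finite_order
  set S := (∑ i ∈ Finset.range m, ‖c i‖) + 2 * ‖ρ‖
  have hgrow : ∀ w : ℝ, 0 < w → ∃ B : ℝ, ∀ s : ℂ, -(1 / 4) ≤ s.re → s.re ≤ 5 / 4 → 1 ≤ |s.im| →
      ‖Φ s‖ ≤ (|C| + S) * (2 * (13 / 4) ^ (9 / 4 : ℝ)) *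
        Real.exp (B * Real.exp (w * |s.im|)) := by
    intro w hw
    obtain ⟨K, hK0, hK⟩ := FA.DegreeGap.exists_pow_le_exp A hw
    refine ⟨|C| * 3 ^ A * K, fun s hs1 hs2 hs3 => ?_⟩
    set Z := Real.exp (|C| * 3 ^ A * K * Real.exp (w * |s.im|))
    have hZ : 1 ≤ Z := Real.one_le_exp (by positivity)
    have hne0 : s ≠ 0 := fun e => by rw [e] at hs3; norm_num at hs3
    have hne1 : s ≠ 1 := fun e => by rw [e] at hs3; norm_num at hs3
    have hn1 : 1 ≤ ‖s - 1‖ := le_trans (by simpa using hs3) (Complex.abs_im_le_norm _)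
    have hn0 : 1 ≤ ‖s‖ := hs3.trans (Complex.abs_im_le_norm _)
    have hn2 : 1 ≤ ‖s + 2‖ := le_trans (by simpa using hs3) (Complex.abs_im_le_norm _)
    have hEs : ‖E s‖ ≤ |C| * Z := by
      refine (hE s).trans (mul_le_mul (le_abs_self C) (Real.exp_le_exp.2 ?_) (Real.exp_nonneg _)
        (abs_nonneg C))
      calc C * (1 + ‖s‖) ^ A ≤ |C| * (3 * (1 + |s.im|)) ^ A := by
            refine mul_le_mul (le_abs_self C) (pow_le_pow_left₀ (by positivity) ?_ A)
              (by positivity) (abs_nonneg C)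
            linarith [norm_le_abs_re_add_abs_im s, abs_le.2 ⟨by linarith, hs2⟩,
              abs_nonneg s.im]
        _ ≤ |C| * 3 ^ A * (K * Real.exp (w * |s.im|)) := by
            rw [mul_pow, mul_assoc]
            gcongr
            exact hK _
        _ = _ := by ring
    have hpp : ‖pp s‖ ≤ S := by
      refine (norm_add_le _ _).trans (add_le_add ?_ ?_)
      · rw [Finset.sum_div]
        refine (norm_sum_le _ _).trans (Finset.sum_le_sum fun i hi => ?_)
        obtain ⟨k, rfl⟩ : ∃ k, m = i + k := ⟨m - i, by rw [Finset.mem_range] at hi; omega⟩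
        rw [pow_add, mul_comm (c i), mul_div_mul_left _ _ (pow_ne_zero _ (sub_ne_zero.2 hne1)),
          norm_div, norm_pow]
        exact div_le_self (norm_nonneg _) (one_le_pow₀ hn1)
      · rw [norm_div, norm_mul, Complex.norm_ofNat]
        exact div_le_self (by positivity) hn2
    have hG : ‖Complex.Gamma (s + 1)‖ ≤ 2 * (13 / 4) ^ (9 / 4 : ℝ) := by
      have hre : (s + 1).re = s.re + 1 := by simp
      refine (HeckeBS.norm_Gamma_le_re (by rw [hre]; linarith)).trans ?_
      rw [hre]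
      refine (FA.DegreeGap.Gamma_le_rpow (by linarith)).trans
        (mul_le_mul_of_nonneg_left ?_ zero_le_two)
      exact (Real.rpow_le_rpow (by linarith) (by linarith) (by linarith)).trans
        (Real.rpow_le_rpow_of_exponent_le (by norm_num) (by linarith))
    have hds : ‖dslope e 0 s‖ ≤ (|C| + S) * Z := by
      have h2 : e s = E s / (s - 1) ^ m - pp s := by
        simp only [pp, e, hsplit s, add_div,
          mul_div_cancel_left₀ _ (pow_ne_zero m (sub_ne_zero.2 hne1))]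
        ring
      rw [dslope_of_ne _ hne0, slope_def_field, he0, sub_zero, sub_zero, norm_div, h2]
      refine (div_le_self (norm_nonneg _) hn0).trans ((norm_sub_le _ _).trans ?_)
      rw [norm_div, norm_pow, add_mul]
      exact add_le_add ((div_le_self (norm_nonneg _) (one_le_pow₀ hn1)).trans hEs)
        (hpp.trans (le_mul_of_one_le_right (by positivity) hZ))
    rw [norm_mul]
    refine (mul_le_mul hds hG (norm_nonneg _) (by positivity)).trans_eq ?_
    ring
  refine ⟨P₁, P₂, hN₁, hN₂, fun z hz => ?_⟩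
  have hreal : ∀ x : ℝ, 0 < x → 2 * π * expSeries a 0 (x : ℂ) =
      lineMellin (-(1 / 4)) K₂ x + lineMellin (5 / 4) P₁ x - lineMellin (-(1 / 4)) P₂ x := by
    intro x hx
    have hx' : 0 < (x : ℂ).re := by simpa using hx
    have h1 := lineMellin_eq_of_strip hΦ hgrow hkl hkr hx
    simp only [hr, hl, lineMellin, sub_mul] at h1
    rw [integral_sub (hK₁.integrable _ hx') (hN₁.1.isKernel.integrable _ hx'),
      integral_sub (hK₂.integrable _ hx') (hN₂.1.isKernel.integrable _ hx')] at h1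
    rw [← lineMellin_series (by norm_num) hs hx]
    simp only [lineMellin]
    linear_combination h1
  have hopen : IsOpen {w : ℂ | 0 < w.re} := isOpen_lt continuous_const Complex.continuous_re
  refine AnalyticOnNhd.eqOn_of_preconnected_of_frequently_eq
    (((differentiableOn_const _).mul (FA.DegreeGap.differentiableOn_expSeries
      (h.summable 2 (by norm_num)) 0)).analyticOnNhd hopen)
    ((((hK₂.differentiableOn_lineMellin _).add (hN₁.1.isKernel.differentiableOn_lineMellin _)).sub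
      (hN₂.1.isKernel.differentiableOn_lineMellin _)).analyticOnNhd hopen)
    (convex_halfSpace_re_gt 0).isPreconnected (show (1 : ℂ) ∈ {w : ℂ | 0 < w.re} by simp) ?_ hz
  have ht : Tendsto (fun u : ℝ => (u : ℂ)) (𝓝[≠] 1) (𝓝[≠] (1 : ℂ)) := by
    refine tendsto_nhdsWithin_iff.2 ⟨?_, ?_⟩
    · simpa using (Complex.continuous_ofReal.tendsto (1 : ℝ)).mono_left nhdsWithin_le_nhds
    · filter_upwards [self_mem_nhdsWithin] with u hu
      exact fun e => hu (by simpa using e)
  exact ht.frequently (((eventually_gt_nhds zero_lt_one).filter_mono nhdsWithin_le_nhds).mono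
    fun u hu => hreal u hu).frequently

end FA.DegreeOne

end
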