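import Fermat.Agent.DegreeGap.Gamma
import Fermat.Agent.ArgumentMean.Stirling
import Fermat.Agent.TwistedMoment.Stirling
import Mathlib.Analysis.SpecialFunctions.Complex.LogBounds

/-!
# Stirling's formula on vertical lines

`Γ (A + iy) = √(2π) exp (stExp A y) (1 + o 1)` as `y → ∞`, for every real `A`: the value at
`A = 1/2` is known, the logarithmic derivative moves `A` along, and the recursion reaches `A ≤ 0`.
-/

set_option autoImplicit false

noncomputable section

open Complex Filter Topology Set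
open scoped Real ComplexConjugate
open FA.RiemannMangoldt (logGam exp_logGam hasDerivAt_logGam)

namespace FA.DegreeOne

/-- The exponent in Stirling's formula. -/
def stExp (A y : ℝ) : ℂ :=
  ((A - 1 / 2 : ℝ) : ℂ) * Complex.log (y * I) - ((π * y / 2 : ℝ) : ℂ) +
    ((y * Real.log y - y : ℝ) : ℂ) * I

theorem log_mul_I {y : ℝ} (hy : 0 < y) :
    Complex.log (y * I) = (Real.log y : ℂ) + ((π / 2 : ℝ) : ℂ) * I := by
  rw [Complex.log_ofReal_mul hy I_ne_zero, Complex.log_I]
  push_cast
  ring

theorem re_stExp {A y : ℝ} (hy : 0 < y) :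
    (stExp A y).re = (A - 1 / 2) * Real.log y - π * y / 2 := by
  simp [stExp, log_mul_I hy]

theorem stExp_sub (A B y : ℝ) :
    stExp A y - stExp B y = ((A - B : ℝ) : ℂ) * Complex.log (y * I) := by
  simp only [stExp]
  push_cast
  ring

theorem tendsto_stirling_half :
    Tendsto (fun y : ℝ => Complex.Gamma (((1 / 2 : ℝ) : ℂ) + y * I) * cexp (-stExp (1 / 2) y))
      atTop (𝓝 (√(2 * π) : ℝ)) := by
  have hre : ∀ y : ℝ, 0 < (((1 / 2 : ℝ) : ℂ) + y * I).re := fun y => by simp
  set g : ℝ → ℂ := fun y => logGam (((1 / 2 : ℝ) : ℂ) + y * I)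
  have hnorm : Tendsto (fun y : ℝ => Real.exp ((g y).re + π * y / 2)) atTop (𝓝 (√(2 * π))) := by
    have h1 : Tendsto (fun y : ℝ => √(2 * π / (1 + Real.exp (-(2 * π * y))))) atTop
        (𝓝 (√(2 * π))) := by
      have h2 : Tendsto (fun y : ℝ => Real.exp (-(2 * π * y))) atTop (𝓝 0) :=
        Real.tendsto_exp_neg_atTop_nhds_zero.comp
          (tendsto_id.const_mul_atTop (by positivity : (0 : ℝ) < 2 * π))
      have h3 := (tendsto_const_nhds (x := 2 * π)).div ((tendsto_const_nhds (x := (1 : ℝ))).add h2)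
        (by norm_num)
      rw [add_zero, div_one] at h3
      exact (Real.continuous_sqrt.tendsto _).comp h3
    refine h1.congr fun y => ?_
    rw [← Real.sqrt_sq (Real.exp_nonneg ((g y).re + π * y / 2))]
    congr 1
    have hn : ‖Complex.Gamma (((1 / 2 : ℝ) : ℂ) + y * I)‖ = Real.exp (g y).re := by
      rw [← exp_logGam (hre y), Complex.norm_exp]
    have hsq : ‖Complex.Gamma (((1 / 2 : ℝ) : ℂ) + y * I)‖ ^ 2 = π / Real.cosh (π * y) := by
      set z : ℂ := ((1 / 2 : ℝ) : ℂ) + y * I
      have h := Complex.Gamma_mul_Gamma_one_sub z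
      rw [show (1 : ℂ) - z = conj z by apply Complex.ext <;> simp [z]; norm_num,
        Complex.Gamma_conj, show (π : ℂ) * z = ((π * y : ℝ) : ℂ) * I + π / 2 by
          simp only [z]; push_cast; ring, Complex.sin_add_pi_div_two, Complex.cos_mul_I,
        Complex.mul_conj, Complex.normSq_eq_norm_sq, ← Complex.ofReal_cosh, ← ofReal_div] at h
      exact_mod_cast h
    rw [Real.exp_add, mul_pow, ← hn, hsq, Real.cosh_eq, ← Real.exp_nat_mul,
      show ((2 : ℕ) : ℝ) * (π * y / 2) = π * y by push_cast; ring,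
      show -(2 * π * y) = -(π * y) + -(π * y) by ring, Real.exp_add, Real.exp_neg]
    field_simp
  have harg : Tendsto (fun y : ℝ => cexp ((((g y).im - (y * Real.log y - y) : ℝ) : ℂ) * I))
      atTop (𝓝 1) := by
    have h1 : Tendsto (fun y : ℝ => (g y).im - (y * Real.log y - y)) atTop (𝓝 0) := by
      refine squeeze_zero_norm' ?_ ((tendsto_const_nhds (x := (3 * (1 / 2 + 1) ^ 2 : ℝ))).div_atTop
        tendsto_id)
      filter_upwards [eventually_gt_atTop 0] with y hy
      have h := FA.ArgumentMean.abs_im_logGam_stirling (show (0 : ℝ) < 1 / 2 by norm_num) hy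
      rw [sub_self, zero_mul, add_zero] at h
      exact h
    have h2 := (((Complex.continuous_ofReal.tendsto 0).comp h1).mul_const I).cexp
    simpa using h2
  have h := (((Complex.continuous_ofReal.tendsto _).comp hnorm)).mul harg
  rw [mul_one] at h
  refine h.congr fun y => ?_
  simp only [Function.comp_apply, g]
  rw [← exp_logGam (hre y), ← Complex.exp_add, ofReal_exp, ← Complex.exp_add]
  congr 1
  apply Complex.ext <;> simp [stExp]; ring

theorem tendsto_stirling_pos {A : ℝ} (hA : 0 < A) :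
    Tendsto (fun y : ℝ => Complex.Gamma ((A : ℂ) + y * I) * cexp (-stExp A y))
      atTop (𝓝 (√(2 * π) : ℝ)) := by
  set a₀ : ℝ := min A (1 / 2)
  set a₁ : ℝ := max A (1 / 2)
  have ha₀ : 0 < a₀ := lt_min hA (by norm_num)
  have hd : Tendsto (fun y : ℝ =>
      (logGam ((A : ℂ) + y * I) - (A : ℂ) * Complex.log (y * I)) -
        (logGam (((1 / 2 : ℝ) : ℂ) + y * I) - ((1 / 2 : ℝ) : ℂ) * Complex.log (y * I)))
      atTop (𝓝 0) := by
    refine squeeze_zero_norm' ?_ ((tendsto_const_nhds (x := (5 + a₁) * |A - 1 / 2|)).div_atTop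
      tendsto_id)
    filter_upwards [eventually_ge_atTop 2] with y hy
    have hy0 : 0 < y := by linarith
    have hder : ∀ u ∈ Icc a₀ a₁, HasDerivWithinAt
        (fun u : ℝ => logGam ((u : ℂ) + y * I) - (u : ℂ) * Complex.log (y * I))
        (deriv Complex.Gamma ((u : ℂ) + y * I) / Complex.Gamma ((u : ℂ) + y * I) -
          Complex.log (y * I)) (Icc a₀ a₁) u := by
      intro u hu
      have hre : 0 < ((u : ℂ) + y * I).re := by simpa using ha₀.trans_le hu.1
      have h1 : HasDerivAt (fun v : ℝ => logGam ((v : ℂ) + y * I))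
          (deriv Complex.Gamma ((u : ℂ) + y * I) / Complex.Gamma ((u : ℂ) + y * I)) u := by
        simpa using ((hasDerivAt_logGam hre).comp (u : ℂ)
          ((hasDerivAt_id' (u : ℂ)).add_const ((y : ℂ) * I))).comp_ofReal
      have h2 : HasDerivAt (fun v : ℝ => (v : ℂ) * Complex.log (y * I))
          (Complex.log (y * I)) u := by
        simpa using ((hasDerivAt_id' u).ofReal_comp).mul_const (Complex.log ((y : ℂ) * I))
      exact (h1.sub h2).hasDerivWithinAt
    have hb : ∀ u ∈ Icc a₀ a₁, ‖deriv Complex.Gamma ((u : ℂ) + y * I) /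
        Complex.Gamma ((u : ℂ) + y * I) - Complex.log (y * I)‖ ≤ (5 + a₁) / y := by
      intro u hu
      have hu0 : 0 < u := ha₀.trans_le hu.1
      have him : |((u : ℂ) + y * I).im| = y := by simp [abs_of_pos hy0]
      have h1 := FA.TwistedMoment.norm_digamma_sub_clog_le (z := (u : ℂ) + y * I)
        (by simpa using hu0) (by rw [him]; exact hy)
      have h2 := FA.TwistedMoment.norm_log_sub_axis_le hu0.le hy0.ne'
      rw [him] at h1
      rw [abs_of_pos hy0] at h2
      rw [← sub_add_sub_cancel _ (Complex.log ((u : ℂ) + y * I)), add_div]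
      exact (norm_add_le _ _).trans
        (add_le_add h1 (h2.trans (div_le_div_of_nonneg_right hu.2 hy0.le)))
    have h := (convex_Icc a₀ a₁).norm_image_sub_le_of_norm_hasDerivWithin_le hder hb
      (x := 1 / 2) (y := A) ⟨min_le_right _ _, le_max_right _ _⟩ ⟨min_le_left _ _, le_max_left _ _⟩
    refine h.trans_eq ?_
    rw [Real.norm_eq_abs, id]
    ring
  have h := tendsto_stirling_half.mul hd.cexp
  rw [Complex.exp_zero, mul_one] at h
  refine h.congr fun y => ?_
  rw [← exp_logGam (z := ((1 / 2 : ℝ) : ℂ) + y * I) (by simp),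
    ← exp_logGam (z := (A : ℂ) + y * I) (by simpa using hA), ← Complex.exp_add, ← Complex.exp_add,
    ← Complex.exp_add]
  congr 1
  have e := stExp_sub A (1 / 2) y
  push_cast at e ⊢
  linear_combination e

/-- **Stirling's formula on a vertical line.** -/
theorem tendsto_stirling (A : ℝ) :
    Tendsto (fun y : ℝ => Complex.Gamma ((A : ℂ) + y * I) * cexp (-stExp A y))
      atTop (𝓝 (√(2 * π) : ℝ)) := by
  suffices H : ∀ N : ℕ, ∀ A : ℝ, 0 < A + N →
      Tendsto (fun y : ℝ => Complex.Gamma ((A : ℂ) + y * I) * cexp (-stExp A y))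
        atTop (𝓝 (√(2 * π) : ℝ)) by
    exact H (⌊-A⌋₊ + 1) A (by push_cast; linarith [Nat.lt_floor_add_one (-A)])
  intro N
  induction N with
  | zero => exact fun A hA => tendsto_stirling_pos (by simpa using hA)
  | succ N ih =>
    intro A hA
    have h1 : Tendsto (fun y : ℝ => (y : ℂ) * I / ((A : ℂ) + y * I)) atTop (𝓝 1) := by
      have h2 : Tendsto (fun y : ℝ => (1 : ℂ) + (A : ℂ) / I * ((y⁻¹ : ℝ) : ℂ)) atTop (𝓝 1) := by
        simpa using (((Complex.continuous_ofReal.tendsto 0).comp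
          tendsto_inv_atTop_zero).const_mul ((A : ℂ) / I)).const_add (1 : ℂ)
      have h3 := h2.inv₀ one_ne_zero
      rw [inv_one] at h3
      refine h3.congr' ?_
      filter_upwards [eventually_gt_atTop 0] with y hy
      have hy' : (y : ℂ) ≠ 0 := ofReal_ne_zero.2 hy.ne'
      push_cast
      field_simp
      ring
    have h := h1.mul (ih (A + 1) (by push_cast at hA ⊢; linarith))
    rw [one_mul] at h
    refine h.congr' ?_
    filter_upwards [eventually_gt_atTop 0] with y hy
    have hne : (A : ℂ) + y * I ≠ 0 := fun e => hy.ne' (by simpa using congrArg Complex.im e)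
    have hyI : (y : ℂ) * I ≠ 0 := mul_ne_zero (ofReal_ne_zero.2 hy.ne') I_ne_zero
    have e1 : cexp (-stExp (A + 1) y) = cexp (-stExp A y) / (y * I) := by
      rw [show -stExp (A + 1) y = -stExp A y - Complex.log (y * I) by
        simp only [stExp]; push_cast; ring, Complex.exp_sub, Complex.exp_log hyI]
    rw [e1, show ((A + 1 : ℝ) : ℂ) + y * I = (A : ℂ) + y * I + 1 by push_cast; ring,
      Complex.Gamma_add_one _ hne]
    field_simp
    rw [mul_div_cancel_left₀ _ (ofReal_ne_zero.2 hy.ne')]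

theorem norm_Gamma_neg (A y : ℝ) :
    ‖Complex.Gamma ((A : ℂ) + ((-y : ℝ) : ℂ) * I)‖ = ‖Complex.Gamma ((A : ℂ) + y * I)‖ := by
  rw [show (A : ℂ) + ((-y : ℝ) : ℂ) * I = conj ((A : ℂ) + y * I) by
    apply Complex.ext <;> simp, Complex.Gamma_conj, Complex.norm_conj]

/-- The size of `Γ` on a line, normalised. -/
def gammaSize (A y : ℝ) : ℝ :=
  ‖Complex.Gamma ((A : ℂ) + y * I)‖ * Real.exp (π * |y| / 2) * (1 + |y|) ^ (1 / 2 - A)

theorem gammaSize_neg (A y : ℝ) : gammaSize A (-y) = gammaSize A y := by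
  simp only [gammaSize, norm_Gamma_neg, abs_neg]

theorem tendsto_gammaSize (A : ℝ) : Tendsto (gammaSize A) atTop (𝓝 (√(2 * π))) := by
  have h1 := (tendsto_stirling A).norm
  rw [Complex.norm_real, Real.norm_of_nonneg (Real.sqrt_nonneg _)] at h1
  have h2 : Tendsto (fun y : ℝ => (y⁻¹ + 1) ^ (1 / 2 - A)) atTop (𝓝 1) := by
    have := (tendsto_inv_atTop_zero (𝕜 := ℝ)).add_const 1
    rw [zero_add] at this
    simpa using this.rpow_const (Or.inl one_ne_zero) (p := 1 / 2 - A)
  have h := h1.mul h2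
  rw [mul_one] at h
  refine h.congr' ?_
  filter_upwards [eventually_gt_atTop 0] with y hy
  rw [gammaSize, abs_of_pos hy, norm_mul, Complex.norm_exp, neg_re, re_stExp hy,
    show y⁻¹ + 1 = (1 + y) * y⁻¹ by field_simp,
    Real.mul_rpow (by positivity) (by positivity), Real.inv_rpow hy.le,
    show -((A - 1 / 2) * Real.log y - π * y / 2) = π * y / 2 + Real.log y * (1 / 2 - A) by ring,
    Real.exp_add, ← Real.rpow_def_of_pos hy]
  have : (0 : ℝ) < y ^ (1 / 2 - A) := Real.rpow_pos_of_pos hy _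
  field_simp

theorem exists_bound_of_even {f : ℝ → ℝ} (hf : Continuous f) (he : ∀ y, f (-y) = f y) {l : ℝ}
    (hl : Tendsto f atTop (𝓝 l)) : ∃ C : ℝ, ∀ y, f y ≤ C := by
  obtain ⟨T, hT⟩ := eventually_atTop.1 (hl.eventually (Iic_mem_nhds (lt_add_one l)))
  obtain ⟨C, hC⟩ := (isCompact_Icc (a := -T) (b := T)).exists_bound_of_continuousOn hf.continuousOn
  refine ⟨max (l + 1) C, fun y => ?_⟩
  rcases le_or_gt T |y| with h | h
  · rcases le_total 0 y with hy | hy
    · rw [abs_of_nonneg hy] at h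
      exact le_max_of_le_left (hT y h)
    · rw [abs_of_nonpos hy] at h
      exact le_max_of_le_left (he y ▸ hT (-y) h)
  · exact le_max_of_le_right ((le_abs_self _).trans (hC y (abs_le.1 h.le)))

theorem continuous_Gamma_line {A : ℝ} (hA : ∀ n : ℕ, A ≠ -(n : ℝ)) :
    Continuous fun y : ℝ => Complex.Gamma ((A : ℂ) + y * I) :=
  continuous_iff_continuousAt.2 fun y => (differentiableAt_Gamma _ fun n e => hA n (by
    simpa using congrArg Complex.re e)).continuousAt.comp (by fun_prop)

theorem continuous_inv_Gamma_line (A : ℝ) :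
    Continuous fun y : ℝ => (Complex.Gamma ((A : ℂ) + y * I))⁻¹ :=
  Complex.differentiable_one_div_Gamma.continuous.comp
    (continuous_const.add (Complex.continuous_ofReal.mul continuous_const))

/-- The upper bound on a line. -/
theorem exists_norm_Gamma_le {A : ℝ} (hA : ∀ n : ℕ, A ≠ -(n : ℝ)) : ∃ C : ℝ, 0 ≤ C ∧ ∀ y : ℝ,
    ‖Complex.Gamma ((A : ℂ) + y * I)‖ ≤
      C * (1 + |y|) ^ (A - 1 / 2) * Real.exp (-(π * |y| / 2)) := by
  have hc : Continuous (gammaSize A) := by
    refine ((continuous_Gamma_line hA).norm.mul (by fun_prop)).mul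
      (Continuous.rpow_const (by fun_prop) fun y => Or.inl (by positivity))
  obtain ⟨C, hC⟩ := exists_bound_of_even hc (gammaSize_neg A) (tendsto_gammaSize A)
  refine ⟨max C 0, le_max_right _ _, fun y => ?_⟩
  have h : gammaSize A y ≤ max C 0 := (hC y).trans (le_max_left _ _)
  rw [gammaSize, show 1 / 2 - A = -(A - 1 / 2) by ring, Real.rpow_neg (by positivity),
    ← div_eq_mul_inv, div_le_iff₀ (by positivity), ← le_div_iff₀ (Real.exp_pos _)] at h
  rwa [Real.exp_neg, ← div_eq_mul_inv]

/-- The lower bound on every line. -/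
theorem exists_norm_inv_Gamma_line (A : ℝ) : ∃ C : ℝ, 0 ≤ C ∧ ∀ y : ℝ,
    ‖(Complex.Gamma ((A : ℂ) + y * I))⁻¹‖ ≤
      C * (1 + |y|) ^ (1 / 2 - A) * Real.exp (π * |y| / 2) := by
  have hc : Continuous fun y => (gammaSize A y)⁻¹ := by
    have e : (fun y => (gammaSize A y)⁻¹) = fun y : ℝ =>
        ‖(Complex.Gamma ((A : ℂ) + y * I))⁻¹‖ * (Real.exp (π * |y| / 2))⁻¹ *
          ((1 + |y|) ^ (1 / 2 - A))⁻¹ := by
      funext y
      simp only [gammaSize, mul_inv, norm_inv]
    rw [e]
    exact ((continuous_inv_Gamma_line A).norm.mul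
      ((by fun_prop : Continuous fun y : ℝ => Real.exp (π * |y| / 2)).inv₀
        fun y => (Real.exp_pos _).ne')).mul
      ((Continuous.rpow_const (by fun_prop) fun y => Or.inl (by positivity)).inv₀
        fun y => (Real.rpow_pos_of_pos (by positivity) _).ne')
  obtain ⟨C, hC⟩ := exists_bound_of_even hc (fun y => by rw [gammaSize_neg])
    ((tendsto_gammaSize A).inv₀ (Real.sqrt_pos.2 (by positivity)).ne')
  refine ⟨max C 0, le_max_right _ _, fun y => ?_⟩
  have h : (gammaSize A y)⁻¹ ≤ max C 0 := (hC y).trans (le_max_left _ _)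
  rw [gammaSize, mul_inv, mul_inv, ← norm_inv, ← div_eq_mul_inv, ← div_eq_mul_inv,
    div_le_iff₀ (by positivity), div_le_iff₀ (Real.exp_pos _)] at h
  exact h

end FA.DegreeOne

end
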