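import Fermat.Agent.DegreeGap.Datum
import Fermat.Agent.Hamburger.Example

/-!
# The zeta function has degree one

`E s = (s - 1) ζ s`, with the Gamma factor `π^(-s/2) Γ (s/2)`.
-/

set_option autoImplicit false

noncomputable section

open Complex
open scoped Real ComplexConjugate
open FA.DegreeGap (HasFunctionalEquation gammaFactor degree exists_norm_inv_Gamma_le)

namespace FA.DegreeOne

/-- `(s - 1) ζ s`. -/
def zetaEntire (s : ℂ) : ℂ :=
  Hamburger.zetaG s * cexp ((Real.log π : ℂ) * (s / 2)) * ((Complex.Gamma (s / 2 + 1))⁻¹ / 2)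

theorem zeta_gammaFactor (s : ℂ) :
    gammaFactor (fun _ : Fin 1 => (1 / 2 : ℝ)) (fun _ => 0) (√π)⁻¹ s = Gammaℝ s := by
  have hq : 0 < (√π)⁻¹ := inv_pos.2 (Real.sqrt_pos.2 Real.pi_pos)
  rw [gammaFactor, Gammaℝ_def, Fin.prod_univ_one, cpow_def_of_ne_zero (ofReal_ne_zero.2 hq.ne'),
    cpow_def_of_ne_zero (ofReal_ne_zero.2 Real.pi_ne_zero), ← ofReal_log hq.le,
    ← ofReal_log Real.pi_pos.le, Real.log_inv, Real.log_sqrt Real.pi_pos.le]
  push_cast
  ring_nf

theorem zetaEntire_eq {s : ℂ} (h0 : s ≠ 0) :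
    zetaEntire s = Hamburger.zetaG s * s⁻¹ * (Gammaℝ s)⁻¹ := by
  rw [zetaEntire, Gammaℝ_def, mul_inv, ← cpow_neg, cpow_def_of_ne_zero
    (ofReal_ne_zero.2 Real.pi_ne_zero), ← ofReal_log Real.pi_pos.le, neg_div', neg_neg,
    Complex.one_div_Gamma_eq_self_mul_one_div_Gamma_add_one (s / 2)]
  field_simp

theorem conj_lSeries_one (s : ℂ) : conj (LSeries 1 s) = LSeries 1 (conj s) := by
  rw [LSeries, LSeries, Complex.conj_tsum]
  refine tsum_congr fun n => ?_
  rcases eq_or_ne n 0 with rfl | hn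
  · simp
  have hn' : (n : ℂ) ≠ 0 := Nat.cast_ne_zero.2 hn
  simp only [LSeries.term_of_ne_zero hn, Pi.one_apply, map_div₀, map_one,
    cpow_def_of_ne_zero hn', ← Complex.exp_conj, map_mul]
  rw [← ofReal_natCast, ← ofReal_log (Nat.cast_nonneg n), conj_ofReal]

theorem conj_Gammaℝ (s : ℂ) : conj (Gammaℝ s) = Gammaℝ (conj s) := by
  have hπ : (π : ℂ) ≠ 0 := ofReal_ne_zero.2 Real.pi_ne_zero
  rw [Gammaℝ_def, Gammaℝ_def, map_mul, ← Complex.Gamma_conj, cpow_def_of_ne_zero hπ,
    cpow_def_of_ne_zero hπ, ← Complex.exp_conj, ← ofReal_log Real.pi_pos.le]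
  simp [Complex.conj_ofNat]

theorem exists_zetaEntire_growth : ∃ (A : ℕ) (C : ℝ),
    ∀ s : ℂ, ‖zetaEntire s‖ ≤ C * Real.exp (C * (1 + ‖s‖) ^ A) := by
  obtain ⟨C₁, A₁, h₁⟩ := Hamburger.hamburgerData_zeta.finite_order
  obtain ⟨C₂, hC₂0, h₂⟩ := exists_norm_inv_Gamma_le
  obtain ⟨K, hK⟩ := (isCompact_closedBall (0 : ℂ) 1).exists_bound_of_continuousOn
    Hamburger.hamburgerData_zeta.entire.continuous.continuousOn
  set N := max ⌈A₁⌉₊ 2
  refine ⟨N, max ((|C₁| + |K|) * C₂ + 1) 26, fun s => ?_⟩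
  set R := 1 + ‖s‖
  have hR : 1 ≤ R := by simp only [R]; linarith [norm_nonneg s]
  have hpow : ∀ k : ℕ, k ≤ N → R ^ k ≤ R ^ N := fun k hk => pow_le_pow_right₀ hR hk
  have hRN : 1 ≤ R ^ N := one_le_pow₀ hR
  have hG : ‖Hamburger.zetaG s‖ ≤ (|C₁| + |K|) * Real.exp (R ^ N + 1) := by
    have hexp : 1 ≤ Real.exp (R ^ N + 1) := Real.one_le_exp (by linarith)
    have hC1 : 0 ≤ |C₁| + |K| := by positivity
    rcases le_total ‖s‖ 1 with h | h
    · refine ((hK s (mem_closedBall_zero_iff.2 h)).trans ?_).trans (le_mul_of_one_le_right hC1 hexp)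
      linarith [le_abs_self K, abs_nonneg C₁]
    · refine (h₁ s).trans (mul_le_mul ?_ (Real.exp_le_exp.2 ?_) (Real.exp_nonneg _) hC1)
      · linarith [le_abs_self C₁, abs_nonneg K]
      refine (Real.rpow_le_rpow_of_exponent_le h (Nat.le_ceil A₁)).trans ?_
      rw [Real.rpow_natCast]
      linarith [(pow_le_pow_left₀ (norm_nonneg s) (show ‖s‖ ≤ R by simp [R]) _).trans
        (hpow ⌈A₁⌉₊ (le_max_left _ _))]
  have hP : ‖cexp ((Real.log π : ℂ) * (s / 2))‖ ≤ Real.exp (3 * R ^ N) := by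
    rw [Complex.norm_exp, re_ofReal_mul]
    refine Real.exp_le_exp.2 ?_
    have hl : Real.log π ≤ 3 := (Real.log_le_sub_one_of_pos Real.pi_pos).trans
      (by linarith [Real.pi_lt_four])
    have hl0 : 0 ≤ Real.log π := Real.log_nonneg (by linarith [Real.pi_gt_three])
    have hre : (s / 2).re ≤ R := by
      simp only [R, Complex.div_ofNat_re]
      linarith [Complex.re_le_norm s, norm_nonneg s]
    calc Real.log π * (s / 2).re ≤ Real.log π * R := mul_le_mul_of_nonneg_left hre hl0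
      _ ≤ 3 * R ^ N := mul_le_mul hl (le_self_pow₀ hR (by simp [N])) (by linarith) (by norm_num)
  have hI : ‖(Complex.Gamma (s / 2 + 1))⁻¹‖ ≤ C₂ * Real.exp (20 * R ^ N) := by
    refine (h₂ _).trans ?_
    rw [mul_assoc]
    refine mul_le_mul_of_nonneg_left ?_ hC₂0
    set w := s / 2 + 1
    have hw : ‖w‖ ≤ R := by
      refine (norm_add_le _ _).trans ?_
      rw [norm_div, Complex.norm_ofNat, norm_one]
      simp only [R]
      linarith [norm_nonneg s]
    have h3 : 0 < |w.re| + 2 := by positivity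
    have h4 : (|w.re| + 2) ^ (max (1 - w.re) 0 + 1) ≤
        Real.exp ((|w.re| + 2) * (max (1 - w.re) 0 + 1)) := by
      rw [Real.rpow_def_of_pos h3]
      exact Real.exp_le_exp.2 (mul_le_mul_of_nonneg_right (Real.log_le_self h3.le) (by positivity))
    refine (mul_le_mul_of_nonneg_right h4 (Real.exp_nonneg _)).trans ?_
    rw [← Real.exp_add]
    refine Real.exp_le_exp.2 ?_
    have hre : |w.re| ≤ R := (Complex.abs_re_le_norm w).trans hw
    have him : |w.im| ≤ R := (Complex.abs_im_le_norm w).trans hw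
    have hmax : max (1 - w.re) 0 + 1 ≤ R + 2 := by
      have : max (1 - w.re) 0 ≤ R + 1 :=
        max_le (by linarith [neg_le_abs w.re]) (by linarith)
      linarith
    calc (|w.re| + 2) * (max (1 - w.re) 0 + 1) + π * |w.im|
        ≤ (R + 2) * (R + 2) + 4 * R := by
          refine add_le_add (mul_le_mul (by linarith) hmax (by positivity) (by linarith)) ?_
          exact mul_le_mul Real.pi_lt_four.le him (abs_nonneg _) (by norm_num)
      _ ≤ 20 * R ^ 2 := by nlinarith
      _ ≤ 20 * R ^ N := mul_le_mul_of_nonneg_left (hpow 2 (le_max_right _ _)) (by norm_num)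
  rw [zetaEntire, norm_mul, norm_mul, norm_div, Complex.norm_ofNat]
  calc ‖Hamburger.zetaG s‖ * ‖cexp ((Real.log π : ℂ) * (s / 2))‖ *
        (‖(Complex.Gamma (s / 2 + 1))⁻¹‖ / 2)
      ≤ ((|C₁| + |K|) * Real.exp (R ^ N + 1)) * Real.exp (3 * R ^ N) *
          (C₂ * Real.exp (20 * R ^ N)) := by
        refine mul_le_mul (mul_le_mul hG hP (norm_nonneg _) (by positivity))
          ((half_le_self (norm_nonneg _)).trans hI) (by positivity) (by positivity)
    _ = (|C₁| + |K|) * C₂ * Real.exp (R ^ N + 1 + 3 * R ^ N + 20 * R ^ N) := by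
        rw [Real.exp_add (R ^ N + 1 + 3 * R ^ N), Real.exp_add (R ^ N + 1)]
        ring
    _ ≤ max ((|C₁| + |K|) * C₂ + 1) 26 * Real.exp (max ((|C₁| + |K|) * C₂ + 1) 26 * R ^ N) := by
        refine mul_le_mul ((lt_add_one _).le.trans (le_max_left _ _)) (Real.exp_le_exp.2 ?_)
          (Real.exp_nonneg _) (by positivity)
        linarith [mul_le_mul_of_nonneg_right (le_max_right ((|C₁| + |K|) * C₂ + 1) 26)
          (zero_le_one.trans hRN)]

/-- **The hypotheses hold for `ζ`, with `q = 1`.** -/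
theorem zeta_hasFunctionalEquation :
    HasFunctionalEquation 1 1 zetaEntire (fun _ : Fin 1 => (1 / 2 : ℝ)) (fun _ => 0) (√π)⁻¹ 1 where
  summable s hs := LSeriesSummable_one_iff.2 hs
  differentiable := (Hamburger.hamburgerData_zeta.entire.mul
    ((differentiable_id.div_const 2).const_mul _).cexp).mul
      ((Complex.differentiable_one_div_Gamma.comp
        ((differentiable_id.div_const 2).add_const 1)).div_const 2)
  eq_series s hs := by
    have h0 : s ≠ 0 := fun e => by rw [e] at hs; simp at hs; linarith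
    have hG : Gammaℝ s ≠ 0 := Gammaℝ_ne_zero_of_re_pos (by linarith)
    rw [zetaEntire_eq h0, Hamburger.hamburgerData_zeta.left_eq s hs, pow_one]
    field_simp
  finite_order := exists_zetaEntire_growth
  lam_pos _ := by norm_num
  mu_re _ := by simp
  Q_pos := inv_pos.2 (Real.sqrt_pos.2 Real.pi_pos)
  norm_omega := norm_one
  functional_equation s hs := by
    have h0 : s ≠ 0 := fun e => by rw [e] at hs; simp at hs
    rw [zetaEntire_eq h0, Hamburger.hamburgerData_zeta.right_eq s hs, zeta_gammaFactor,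
      zeta_gammaFactor, map_mul, conj_Gammaℝ, conj_lSeries_one, map_sub, map_one, Complex.conj_conj,
      pow_one, one_mul]
    field_simp

theorem zeta_degree : degree (fun _ : Fin 1 => (1 / 2 : ℝ)) = 1 := by simp [degree]

theorem zeta_conductor :
    2 * π * ((√π)⁻¹) ^ 2 * ∏ _j : Fin 1, (1 / 2 : ℝ) ^ (2 * (1 / 2 : ℝ)) = 1 := by
  rw [Fin.prod_univ_one, inv_pow, Real.sq_sqrt Real.pi_pos.le]
  norm_num

end FA.DegreeOne

end
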